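import Fermat.Agent.Ribet.H884.SlopeClosed
import Fermat.Agent.S37.H400.KronNorm
import Fermat.Agent.S28.Defs

/-!
# Row 38, WALL-p: **W-EIS** (= INST-G of the (S4) board) — frozen leaves + PROVED glue
  (sub-architect helper884)

Target: `H884.EisSlopeStatement` (`SlopeSpec.lean`), the last step of (S4):
the slopes of `x` are proportional to the slopes of the modular unit `u_p = Δ(t^p)/Δ(t)`,
which is an Eisenstein eigenfunction, hence `T_ℓ x - (ℓ+1) x` has slopes `0`.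

Everything is on `t`-expansions.  The function-level Hecke operator is the FORMAL Kronecker norm
`S37.H400.kronNorm ℓ f = f(t^ℓ) · ∏ᵢ f(ζⁱ t^{1/ℓ})` (`= Norm_α (β f)`, i.e. `T_ℓ = α_* β^*`).

## Vocabulary
* `jC k M'`          : `j` as an element of `F_k = modularFunctionFieldFullC k M'`;
* `PDivFin p M' r`   : `r ∈ F_kˣ` and `p ∣ ord_Q r` at every NON-CUSPIDAL place `Q` (`ord_Q j ≥ 0`);
* `NodeGen p M' A f` : both reductions of `f` are `PDivFin`
                       (`f` need not be a Kummer generator: modular units are allowed);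
* `IsModUnit p M' D` : `D ∈ FF (p M')` has `t`-expansion `S28.unitL ℚ̄ p = Δ(t^p)/Δ(t)`;
* `SlopeProp p M' A x` : `x` has a Kummer generator `f` with `NodeGen (f^n · D^a / D^b)`, `p ∤ n`
                       ("the slope vector of `x` is a multiple of the slope vector of `D`").

## Leaves
| leaf | Prop | content | source |
|---|---|---|---|
| CORE-OUT | `CoreOutStatement` | hypotheses of (S4) without NE ⇒ `SlopeProp x` | I6 (helper704 ASM + INST-E) + purity at the ordinary points |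
| HECKE-FUN | `HeckeFunStatement` | `kronNorm ℓ` preserves `FF N` (`ℓ ∤ N`) and maps Kummer generators of `x` to Kummer generators of `T_ℓ x` | S37 NormId + Prelude `heckePic0Bar` |
| HECKE-NODE | `HeckeNodeGenStatement` | `NodeGen f ⇒ NodeGen (kronNorm ℓ f)` | reduction commutes with `kronNorm` (`coeffMap_kronNorm`), `T_ℓ w_N = w_N T_ℓ`, norm formula over `k` at level `M'` |
| UNIT-EIS | `UnitEisStatement` | `kronNorm ℓ u_p = c · u_p^(ℓ+1)` (formal identity of `t`-series, `ℓ ≠ p`) | η-product calculus |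
| CUSP | `CuspPurityStatement` | Kummer generator + `NodeGen` ⇒ `FinGen` (purity at the cusps: smooth points) | A2 purity (H609) + charts |
| RED | `RedExistsStatement`, `RedUniqueStatement`, `RedFieldStatement` | (`SlopeSpec.lean`; helper997) | |

## Proved here
* calculus of `PDivFin`, `NodeGen` (`mul`, `inv`, `pow`, constants, extraction of `n`-th roots);
* `isEisMod_of_slopeProp` and **`eisSlope_of`** :
  `CoreOut → HeckeFun → HeckeNodeGen → UnitEis → CuspPurity → RedExists → RedUnique → RedField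
     → EisSlopeStatement`.
-/

set_option autoImplicit false
set_option synthInstance.maxHeartbeats 400000
set_option maxHeartbeats 1000000
set_option linter.unusedSectionVars false

noncomputable section

namespace Fermat.Agent.Ribet.H884

open AlgebraicCurve ModularCurve HahnSeries
open Fermat.Agent.S24 Fermat.Agent.A2.H708 Fermat.Agent.A2.H528 Fermat.Agent.A2.H129
open Fermat.Agent.Ribet.Spec Fermat.Agent.Ribet.H944.Wall
open Fermat.Agent.S37.H400

/-! ## Vocabulary -/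

/-- `j` as an element of `F_k = k(X₀(M'))`. -/
def jC (k : Type) [Field k] (M' : ℕ) : modularFunctionFieldFullC k M' :=
  ⟨jqModC k, jqModC_mem_full k M'⟩

/-- `r` is a nonzero element of `F_k` whose orders at the non-cuspidal places are divisible by
`p`. -/
def PDivFin (p M' : ℕ) {k : Type} [Field k] (r : LaurentSeries k) : Prop :=
  ∃ h : modularFunctionFieldFullC k M', (h : LaurentSeries k) = r ∧ h ≠ 0 ∧
    ∀ Q : Place k (modularFunctionFieldFullC k M'), 0 ≤ Q.ord (jC k M') → (p : ℤ) ∣ Q.ord h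

/-- Both reductions of `f` have `p`-divisible orders away from the cusps. -/
def NodeGen (p M' : ℕ) [NeZero (p * M')] (A : ValuationSubring Kbar) (f : FF (p * M')) : Prop :=
  ∃ r₁ r₂ : LaurentSeries (kA A), IsRedInf (p * M') A f r₁ ∧ IsRedZero (p * M') A f r₂ ∧
    PDivFin p M' r₁ ∧ PDivFin p M' r₂

/-- `D` is the modular unit `Δ(t^p)/Δ(t)`. -/
def IsModUnit (p M' : ℕ) [NeZero p] [NeZero (p * M')] (D : FF (p * M')) : Prop :=
  (D : LaurentSeries Kbar) = Fermat.Agent.S28.unitL Kbar p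

/-- The slope vector of `x` is a multiple of the slope vector of the modular unit. -/
def SlopeProp (p M' : ℕ) [NeZero p] [NeZero (p * M')] (A : ValuationSubring Kbar)
    (x : JZero (p * M')) : Prop :=
  ∃ (f D G : FF (p * M')) (n a b : ℕ), IsKummerGen (p * M') p f x ∧ IsModUnit p M' D ∧
    D ≠ 0 ∧ ¬ p ∣ n ∧ G * D ^ b = f ^ n * D ^ a ∧ NodeGen p M' A G

/-! ## Leaves -/

/-- **CORE-OUT** (output of I6: cover trick + node relation + slope dictionary, and purity at the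
ordinary points): under the hypotheses of (S4), without the non-Eisenstein hypothesis, the slopes
of `x` are proportional to the slopes of the modular unit. -/
def CoreOutStatement : Prop :=
  ∀ (p M' : ℕ) [NeZero M'] [NeZero p] [NeZero (p * M')], p.Prime → 5 ≤ p → ¬ p ∣ M' →
    ∀ A : ValuationSubring Kbar, A.LiesOverPrime p →
    ∀ (S : Finset ℕ) (a : ℕ → ℤ) (x t : JZero (p * M')),
      IsNewTors p M' x → EigenAt (p * M') S a x →
      IsNewTors p M' t → EigenAt (p * M') S a t →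
      (∀ σ ∈ A.inertiaSubgroupIn ℚ, ∀ c : ℕ, CycloAt p σ c → σ • t = c • t) →
      (∀ σ ∈ A.inertiaSubgroupIn ℚ, ∃ n : ℕ, σ • x = x + n • t) →
      (∀ σ : GQ, PeuFixes A p σ → σ • x = x) →
      SlopeProp p M' A x

/-- **HECKE-FUN**: the formal Kronecker norm preserves `FF N` (`ℓ ∤ N`) and is the
function-level Hecke operator: it maps a Kummer generator of `x` to a Kummer generator of
`T_ℓ x`. -/
def HeckeFunStatement : Prop :=
  ∀ (N : ℕ) [NeZero N] (ℓ : Nat.Primes) [NeZero (ℓ : ℕ)], ¬ (ℓ : ℕ) ∣ N →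
    ∀ f : FF N, ∃ g : FF N,
      (g : LaurentSeries Kbar) = kronNorm (ℓ : ℕ) (f : LaurentSeries Kbar) ∧
      ∀ (p : ℕ) (x : JZero N), IsKummerGen N p f x →
        IsKummerGen N p g (heckeOperatorBar N ℓ x)

/-- **HECKE-NODE**: `NodeGen` is stable under the function-level Hecke operator. -/
def HeckeNodeGenStatement : Prop :=
  ∀ (p M' : ℕ) [NeZero M'] [NeZero p] [NeZero (p * M')], p.Prime → ¬ p ∣ M' →
    ∀ A : ValuationSubring Kbar, A.LiesOverPrime p →
    ∀ (ℓ : Nat.Primes) [NeZero (ℓ : ℕ)], ¬ (ℓ : ℕ) ∣ p * M' →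
    ∀ f g : FF (p * M'),
      (g : LaurentSeries Kbar) = kronNorm (ℓ : ℕ) (f : LaurentSeries Kbar) →
      NodeGen p M' A f → NodeGen p M' A g

/-- **UNIT-EIS**: the modular unit is an Eisenstein eigenfunction (formal identity). -/
def UnitEisStatement : Prop :=
  ∀ (p : ℕ) [NeZero p] (ℓ : Nat.Primes) [NeZero (ℓ : ℕ)], p.Prime → (ℓ : ℕ) ≠ p →
    ∃ c : Kbar, c ≠ 0 ∧
      kronNorm (ℓ : ℕ) (Fermat.Agent.S28.unitL Kbar p) =
        cst c * Fermat.Agent.S28.unitL Kbar p ^ ((ℓ : ℕ) + 1)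

/-- **CUSP** (purity at the cusps): a Kummer generator whose reductions have `p`-divisible orders
away from the cusps has slopes `0`. -/
def CuspPurityStatement : Prop :=
  ∀ (p M' : ℕ) [NeZero M'] [NeZero p] [NeZero (p * M')], p.Prime → ¬ p ∣ M' →
    ∀ A : ValuationSubring Kbar, A.LiesOverPrime p →
    ∀ (g : FF (p * M')) (y : JZero (p * M')), IsKummerGen (p * M') p g y →
      NodeGen p M' A g → FinGen p M' A g

/-! ## Calculus -/

section Calculus

variable {N : ℕ} [NeZero N] {A : ValuationSubring Kbar}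

theorem IsKummerGen.pow {p : ℕ} {f : FF N} {x : JZero N} (h : IsKummerGen N p f x) (m : ℕ) :
    IsKummerGen N p (f ^ m) (m • x) := by
  induction m with
  | zero =>
    rw [pow_zero, zero_nsmul]
    exact isKummerGen_one
  | succ m ih =>
    rw [pow_succ, succ_nsmul]
    exact ih.mul h

theorem IsRedInf.pow {f : FF N} {r : LaurentSeries (kA A)} (h : IsRedInf N A f r) (m : ℕ) :
    IsRedInf N A (f ^ m) (r ^ m) := by
  induction m with
  | zero =>
    rw [pow_zero, pow_zero]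
    exact isRedInf_one
  | succ m ih =>
    rw [pow_succ, pow_succ]
    exact ih.mul h

theorem IsRedZero.pow {f : FF N} {r : LaurentSeries (kA A)} (h : IsRedZero N A f r) (m : ℕ) :
    IsRedZero N A (f ^ m) (r ^ m) := by
  unfold IsRedZero at h ⊢
  rw [map_pow]
  exact IsRedInf.pow h m

theorem IsRedInf.const_mul {f : FF N} {r : LaurentSeries (kA A)} (h : IsRedInf N A f r)
    {c : Kbar} (hc : c ≠ 0) : IsRedInf N A (algebraMap Kbar (FF N) c * f) r := by
  obtain ⟨c₀, U₁, U₂, hc₀, h₁, h₂, he, hr⟩ := h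
  refine ⟨c * c₀, U₁, U₂, mul_ne_zero hc hc₀, h₁, h₂, ?_, hr⟩
  have hcoe : ((algebraMap Kbar (FF N) c * f : FF N) : LaurentSeries Kbar) =
      cst c * (f : LaurentSeries Kbar) := rfl
  rw [hcoe, mul_assoc, he, cst_mul, mul_assoc]

theorem IsRedZero.const_mul {f : FF N} {r : LaurentSeries (kA A)} (h : IsRedZero N A f r)
    {c : Kbar} (hc : c ≠ 0) : IsRedZero N A (algebraMap Kbar (FF N) c * f) r := by
  unfold IsRedZero at h ⊢
  rw [map_mul, AlgEquiv.commutes]
  exact IsRedInf.const_mul h hc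

end Calculus

section PDivFinCalc

variable {p M' : ℕ} {k : Type} [Field k]

theorem PDivFin.mul {r r' : LaurentSeries k} (h : PDivFin p M' r) (h' : PDivFin p M' r') :
    PDivFin p M' (r * r') := by
  obtain ⟨a, rfl, ha, hdiv⟩ := h
  obtain ⟨a', rfl, ha', hdiv'⟩ := h'
  refine ⟨a * a', rfl, mul_ne_zero ha ha', fun Q hQ => ?_⟩
  rw [Place.ord_mul Q ha ha']
  exact dvd_add (hdiv Q hQ) (hdiv' Q hQ)

theorem PDivFin.inv {r : LaurentSeries k} (h : PDivFin p M' r) : PDivFin p M' r⁻¹ := by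
  obtain ⟨a, rfl, ha, hdiv⟩ := h
  refine ⟨a⁻¹, by rw [IntermediateField.coe_inv], inv_ne_zero ha, fun Q hQ => ?_⟩
  rw [Place.ord_inv]
  exact (dvd_neg).mpr (hdiv Q hQ)

theorem pDivFin_one : PDivFin p M' (1 : LaurentSeries k) := by
  refine ⟨1, rfl, one_ne_zero, fun Q _ => ?_⟩
  rw [Place.ord_one]
  exact dvd_zero _

theorem PDivFin.pow {r : LaurentSeries k} (h : PDivFin p M' r) (m : ℕ) :
    PDivFin p M' (r ^ m) := by
  induction m with
  | zero => rw [pow_zero]; exact pDivFin_one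
  | succ m ih => rw [pow_succ]; exact ih.mul h

/-- Extraction of `n`-th roots, `p ∤ n`. -/
theorem PDivFin.of_pow (hp : p.Prime) {n : ℕ} (hn : ¬ p ∣ n) {r s : LaurentSeries k}
    (hr : ∃ h : modularFunctionFieldFullC k M', (h : LaurentSeries k) = r)
    (c : k) (hs : s = HahnSeries.C c * r ^ n) (h : PDivFin p M' s) : PDivFin p M' r := by
  obtain ⟨a, rfl⟩ := hr
  obtain ⟨b, hb, hb0, hdiv⟩ := h
  have hbe : b = algebraMap k (modularFunctionFieldFullC k M') c * a ^ n := by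
    apply Subtype.ext
    have hc' : ((algebraMap k (modularFunctionFieldFullC k M') c :
        modularFunctionFieldFullC k M') : LaurentSeries k) = HahnSeries.C c := by
      have h0 : ((algebraMap k (modularFunctionFieldFullC k M') c :
          modularFunctionFieldFullC k M') : LaurentSeries k) =
          algebraMap k (LaurentSeries k) c := rfl
      have h1 : algebraMap k (PowerSeries k) c = PowerSeries.C c := by simp
      rw [h0, HahnSeries.algebraMap_apply', h1, HahnSeries.ofPowerSeries_C]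
    rw [hb, hs, IntermediateField.coe_mul, IntermediateField.coe_pow, hc']
  have hc : c ≠ 0 := by
    rintro rfl
    rw [hbe, map_zero, zero_mul] at hb0
    exact hb0 rfl
  have ha : a ≠ 0 := by
    rintro rfl
    have hn0 : n ≠ 0 := by
      rintro rfl
      exact hn (dvd_zero p)
    rw [hbe, zero_pow hn0, mul_zero] at hb0
    exact hb0 rfl
  refine ⟨a, rfl, ha, fun Q hQ => ?_⟩
  have h1 := hdiv Q hQ
  have hcF : algebraMap k (modularFunctionFieldFullC k M') c ≠ 0 := by simpa using hc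
  rw [hbe, Place.ord_mul Q hcF (pow_ne_zero n ha), ord_algebraMap_eq_zero, zero_add,
    ord_pow] at h1
  have hpp : Prime (p : ℤ) := Nat.prime_iff_prime_int.mp hp
  rcases hpp.dvd_or_dvd h1 with h2 | h2
  · exact absurd (Int.natCast_dvd_natCast.mp h2) hn
  · exact h2

end PDivFinCalc

section NodeGenCalc

variable {p M' : ℕ} [NeZero p] [NeZero (p * M')] {A : ValuationSubring Kbar}

theorem NodeGen.ne_zero {f : FF (p * M')} (h : NodeGen p M' A f) : f ≠ 0 := by
  obtain ⟨r₁, r₂, h1, -, -, -⟩ := h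
  intro h0
  exact h1.fun_ne_zero (by rw [h0]; rfl)

theorem NodeGen.mul {f f' : FF (p * M')} (h : NodeGen p M' A f) (h' : NodeGen p M' A f') :
    NodeGen p M' A (f * f') := by
  obtain ⟨r₁, r₂, h1, h2, h3, h4⟩ := h
  obtain ⟨r₁', r₂', h1', h2', h3', h4'⟩ := h'
  exact ⟨r₁ * r₁', r₂ * r₂', h1.mul h1', h2.mul h2', h3.mul h3', h4.mul h4'⟩

theorem NodeGen.inv {f : FF (p * M')} (h : NodeGen p M' A f) : NodeGen p M' A f⁻¹ := by
  obtain ⟨r₁, r₂, h1, h2, h3, h4⟩ := h
  exact ⟨r₁⁻¹, r₂⁻¹, h1.inv, h2.inv, h3.inv, h4.inv⟩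

theorem NodeGen.pow {f : FF (p * M')} (h : NodeGen p M' A f) (m : ℕ) :
    NodeGen p M' A (f ^ m) := by
  obtain ⟨r₁, r₂, h1, h2, h3, h4⟩ := h
  exact ⟨r₁ ^ m, r₂ ^ m, h1.pow m, h2.pow m, h3.pow m, h4.pow m⟩

theorem NodeGen.const_mul {f : FF (p * M')} (h : NodeGen p M' A f) {c : Kbar} (hc : c ≠ 0) :
    NodeGen p M' A (algebraMap Kbar (FF (p * M')) c * f) := by
  obtain ⟨r₁, r₂, h1, h2, h3, h4⟩ := h
  exact ⟨r₁, r₂, h1.const_mul hc, h2.const_mul hc, h3, h4⟩

/-- Extraction of `n`-th roots, `p ∤ n` (needs the RED leaves). -/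
theorem NodeGen.of_pow (hRE : RedExistsStatement) (hRU : RedUniqueStatement)
    (hRF : RedFieldStatement) [NeZero M'] (hp : p.Prime) (hpM : ¬ p ∣ M')
    (hA : A.LiesOverPrime p) {n : ℕ} (hn : ¬ p ∣ n) {g : FF (p * M')} (hg : g ≠ 0)
    (h : NodeGen p M' A (g ^ n)) : NodeGen p M' A g := by
  obtain ⟨s₁, s₂, h1, h2, h3, h4⟩ := h
  obtain ⟨⟨r₁, hr₁⟩, ⟨r₂, hr₂⟩⟩ := hRE p (p * M') hp A hA g hg
  obtain ⟨-, c₁, -, hc₁⟩ := hRU p (p * M') hp A hA (g ^ n) (r₁ ^ n) s₁ (hr₁.pow n) h1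
  have hr₂' : IsRedInf (p * M') A (wF (p * M') (g ^ n)) (r₂ ^ n) := IsRedZero.pow hr₂ n
  obtain ⟨-, c₂, -, hc₂⟩ := hRU p (p * M') hp A hA (wF (p * M') (g ^ n)) (r₂ ^ n) s₂ hr₂' h2
  exact ⟨r₁, r₂, hr₁, hr₂,
    PDivFin.of_pow hp hn (hRF p M' hp hpM A hA g r₁ (Or.inl hr₁)) c₁ hc₁ h3,
    PDivFin.of_pow hp hn (hRF p M' hp hpM A hA g r₂ (Or.inr hr₂)) c₂ hc₂ h4⟩

end NodeGenCalc

/-! ## Glue -/

/-- **W-EIS**: proportional slopes ⇒ Eisenstein slopes. -/
theorem isEisMod_of_slopeProp (hHF : HeckeFunStatement) (hHN : HeckeNodeGenStatement)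
    (hU : UnitEisStatement) (hCP : CuspPurityStatement) (hRE : RedExistsStatement)
    (hRU : RedUniqueStatement) (hRF : RedFieldStatement)
    (p M' : ℕ) [NeZero M'] [NeZero p] [NeZero (p * M')] (hp : p.Prime) (hpM : ¬ p ∣ M')
    (A : ValuationSubring Kbar) (hA : A.LiesOverPrime p) (x : JZero (p * M'))
    (hx : SlopeProp p M' A x) : IsEisMod p M' A (p * M').primeFactors x := by
  intro ℓ hℓ
  have : NeZero (ℓ : ℕ) := ⟨ℓ.2.ne_zero⟩
  have hℓN : ¬ (ℓ : ℕ) ∣ p * M' := fun h =>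
    hℓ (Nat.mem_primeFactors.mpr ⟨ℓ.2, h, NeZero.ne _⟩)
  have hℓp : (ℓ : ℕ) ≠ p := fun h => hℓN (h ▸ dvd_mul_right _ _)
  obtain ⟨f, D, G, n, a, b, hf, hD, hD0, hn, hG, hNG⟩ := hx
  obtain ⟨Tf, hTf, hTfK⟩ := hHF (p * M') ℓ hℓN f
  obtain ⟨TG, hTG, -⟩ := hHF (p * M') ℓ hℓN G
  obtain ⟨c, hc, hUD⟩ := hU p ℓ hp hℓp
  have hf0 : f ≠ 0 := hf.1
  have hG0 : G ≠ 0 := hNG.ne_zero
  -- notation
  set C : FF (p * M') := algebraMap Kbar (FF (p * M')) c with hC
  have hC0 : C ≠ 0 := by simpa [hC] using hc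
  set E : FF (p * M') := D ^ ((ℓ : ℕ) + 1) with hE
  have hE0 : E ≠ 0 := pow_ne_zero _ hD0
  -- the Hecke transform of the relation `G * D ^ b = f ^ n * D ^ a`
  have h2 : TG * (C * E) ^ b = Tf ^ n * (C * E) ^ a := by
    apply Subtype.ext
    have e1 : ((C * E : FF (p * M')) : LaurentSeries Kbar) =
        kronNorm (ℓ : ℕ) (D : LaurentSeries Kbar) := by
      have hD' : (D : LaurentSeries Kbar) = Fermat.Agent.S28.unitL Kbar p := hD
      have hCE : ((C * E : FF (p * M')) : LaurentSeries Kbar) =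
          cst c * (D : LaurentSeries Kbar) ^ ((ℓ : ℕ) + 1) := rfl
      rw [hCE, hD', hUD]
    have e2 : ((TG * (C * E) ^ b : FF (p * M')) : LaurentSeries Kbar) =
        kronNorm (ℓ : ℕ) ((G * D ^ b : FF (p * M')) : LaurentSeries Kbar) := by
      have : ((G * D ^ b : FF (p * M')) : LaurentSeries Kbar) =
          (G : LaurentSeries Kbar) * (D : LaurentSeries Kbar) ^ b := rfl
      rw [this, kronNorm_mul, kronNorm_pow, ← hTG, ← e1]
      rfl
    have e3 : ((Tf ^ n * (C * E) ^ a : FF (p * M')) : LaurentSeries Kbar) =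
        kronNorm (ℓ : ℕ) ((f ^ n * D ^ a : FF (p * M')) : LaurentSeries Kbar) := by
      have : ((f ^ n * D ^ a : FF (p * M')) : LaurentSeries Kbar) =
          (f : LaurentSeries Kbar) ^ n * (D : LaurentSeries Kbar) ^ a := rfl
      rw [this, kronNorm_mul, kronNorm_pow, kronNorm_pow, ← hTf, ← e1]
      rfl
    rw [e2, e3, hG]
  -- the `(ℓ+1)`-st power of the relation
  have h3 : G ^ ((ℓ : ℕ) + 1) * E ^ b = f ^ (n * ((ℓ : ℕ) + 1)) * E ^ a := by
    have h3' : (G * D ^ b) ^ ((ℓ : ℕ) + 1) = (f ^ n * D ^ a) ^ ((ℓ : ℕ) + 1) := by rw [hG]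
    calc G ^ ((ℓ : ℕ) + 1) * E ^ b = (G * D ^ b) ^ ((ℓ : ℕ) + 1) := by rw [hE]; ring
      _ = (f ^ n * D ^ a) ^ ((ℓ : ℕ) + 1) := h3'
      _ = f ^ (n * ((ℓ : ℕ) + 1)) * E ^ a := by rw [hE]; ring
  -- the Kummer generator of `T_ℓ x - (ℓ + 1) x`
  set g : FF (p * M') := Tf * (f ^ ((ℓ : ℕ) + 1))⁻¹ with hg
  have hgK : IsKummerGen (p * M') p g
      (heckeOperatorBar (p * M') ℓ x - ((ℓ : ℕ) + 1) • x) := by
    have := (hTfK p x hf).mul ((hf.pow ((ℓ : ℕ) + 1)).inv)
    rwa [← sub_eq_add_neg] at this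
  have hg0 : g ≠ 0 := hgK.1
  -- `g ^ n` is a constant times `TG / G ^ (ℓ + 1)`
  have h4 : Tf ^ n * C ^ a * G ^ ((ℓ : ℕ) + 1) = C ^ b * TG * f ^ (n * ((ℓ : ℕ) + 1)) := by
    have hEE : E ^ a * E ^ b ≠ 0 := mul_ne_zero (pow_ne_zero _ hE0) (pow_ne_zero _ hE0)
    apply mul_right_cancel₀ hEE
    rw [mul_pow, mul_pow] at h2
    linear_combination (-(f ^ (n * ((ℓ : ℕ) + 1)) * E ^ a)) * h2 + (Tf ^ n * C ^ a * E ^ a) * h3
  have h5 : g ^ n = algebraMap Kbar (FF (p * M')) (c ^ b * (c ^ a)⁻¹) *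
      (TG * (G ^ ((ℓ : ℕ) + 1))⁻¹) := by
    have hCa : C ^ a ≠ 0 := pow_ne_zero _ hC0
    have hGl : G ^ ((ℓ : ℕ) + 1) ≠ 0 := pow_ne_zero _ hG0
    have hfl : f ^ ((ℓ : ℕ) + 1) ≠ 0 := pow_ne_zero _ hf0
    have hcc : algebraMap Kbar (FF (p * M')) (c ^ b * (c ^ a)⁻¹) = C ^ b * (C ^ a)⁻¹ := by
      rw [map_mul, map_inv₀, map_pow, map_pow]
    rw [hcc, hg, mul_pow, inv_pow, ← pow_mul, mul_comm ((ℓ : ℕ) + 1) n]
    have hfn : f ^ (n * ((ℓ : ℕ) + 1)) ≠ 0 := pow_ne_zero _ hf0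
    field_simp
    linear_combination h4
  have hcb : c ^ b * (c ^ a)⁻¹ ≠ 0 := mul_ne_zero (pow_ne_zero _ hc) (inv_ne_zero (pow_ne_zero _ hc))
  have hNGn : NodeGen p M' A (g ^ n) := by
    rw [h5]
    exact ((hHN p M' hp hpM A hA ℓ hℓN G TG hTG hNG).mul (hNG.pow _).inv).const_mul hcb
  have hNGg : NodeGen p M' A g := NodeGen.of_pow hRE hRU hRF hp hpM hA hn hg0 hNGn
  exact AddSubgroup.subset_closure ⟨g, hgK, hCP p M' hp hpM A hA g _ hgK hNGg⟩

/-- **EIS from the W-EIS leaves.** -/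
theorem eisSlope_of (hCO : CoreOutStatement) (hHF : HeckeFunStatement)
    (hHN : HeckeNodeGenStatement) (hU : UnitEisStatement) (hCP : CuspPurityStatement)
    (hRE : RedExistsStatement) (hRU : RedUniqueStatement) (hRF : RedFieldStatement) :
    EisSlopeStatement := by
  intro p M' _ _ _ hp hp5 hpM A hA S a x t hx hex ht het hχ hsh hpeu
  exact ⟨(p * M').primeFactors,
    isEisMod_of_slopeProp hHF hHN hU hCP hRE hRU hRF p M' hp hpM A hA x
      (hCO p M' hp hp5 hpM A hA S a x t hx hex ht het hχ hsh hpeu)⟩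

end Fermat.Agent.Ribet.H884

end
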