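import Fermat.Agent.Ribet.H884.EisSpec
import Fermat.Agent.Ribet.H398.HeckeFun
import Fermat.Agent.Ribet.H699.HeckeNodeGen
import Fermat.Agent.Ribet.H67.UnitEis
import Fermat.Agent.Ribet.H997.RedField
import Fermat.Agent.Ribet.H704.CoreOutSpec

/-!
# Row 38, WALL-p, W-EIS: the assembly at ONE `(p, M', A)`, and the top for `p ≥ 5`  (helper884)

`H884.eisSlope_of` (`EisSpec.lean`) consumes `CuspPurityStatement` for ALL primes `p`, but the
semistable model on main exists at `p = 3` only for `2 ∣ M'` and at `p = 2` only for `3 ∣ M'`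
(helper644 #9247).  The wall needs `p ≥ 5` only.  This file gives the POINTWISE assembly:

* `CuspPurityAt p M' A`   : CUSP at one `(p, M', A)`;
* `CuspPurity5Statement`  : CUSP for `p ≥ 5`  (**this is what the CUSP owners have to prove**);
* `isEisMod_of_slopeProp_at`, `mem_finPart_of_slopeProp_at` : `SlopeProp x` + CUSP at `(p, M', A)`
  (+ non-Eisenstein, eigen) ⟹ `x ∈ finPart`; all other leaves are plugged in from main
  (`H398.heckeFun`, `H699.heckeNodeGen`, `H67.unitEis`, `H997.redExists/redUnique/redField`);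
* **`eisSlope_of_frontier5 :
    H704.CoreOut.CoreOutNEStatement → CuspPurity5Statement → EisSlopeStatement`**
  (CORE-OUT with the hypothesis `NonEisAway`, `H704/CoreOutSpec.lean`),
  `s4For_of_frontier5` (the `S4For` form), `eisSlope_of_coreOut_cusp5`.
-/

set_option autoImplicit false
set_option synthInstance.maxHeartbeats 400000
set_option maxHeartbeats 1000000
set_option linter.unusedSectionVars false

noncomputable section

namespace Fermat.Agent.Ribet.H884

open AlgebraicCurve ModularCurve HahnSeries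
open Fermat.Agent.S24 Fermat.Agent.A2.H708 Fermat.Agent.A2.H528 Fermat.Agent.A2.H129
open Fermat.Agent.Ribet.Spec Fermat.Agent.Ribet.H944.Wall
open Fermat.Agent.S37.H400

/-- **CUSP at one `(p, M', A)`.** -/
def CuspPurityAt (p M' : ℕ) [NeZero (p * M')] (A : ValuationSubring Kbar) : Prop :=
  ∀ (g : FF (p * M')) (y : JZero (p * M')), IsKummerGen (p * M') p g y →
    NodeGen p M' A g → FinGen p M' A g

/-- **CUSP for `p ≥ 5`** (the form needed by the wall). -/
def CuspPurity5Statement : Prop :=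
  ∀ (p M' : ℕ) [NeZero M'] [NeZero p] [NeZero (p * M')], p.Prime → 5 ≤ p → ¬ p ∣ M' →
    ∀ A : ValuationSubring Kbar, A.LiesOverPrime p → CuspPurityAt p M' A

theorem cuspPurity5_of (h : CuspPurityStatement) : CuspPurity5Statement :=
  fun p M' _ _ _ hp _ hpM A hA g y hg hN => h p M' hp hpM A hA g y hg hN

/-- **The W-EIS assembly at one `(p, M', A)`** (general leaves). -/
theorem isEisMod_of_slopeProp_at' (hHF : HeckeFunStatement) (hHN : HeckeNodeGenStatement)
    (hU : UnitEisStatement) (hRE : RedExistsStatement)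
    (hRU : RedUniqueStatement) (hRF : RedFieldStatement)
    (p M' : ℕ) [NeZero M'] [NeZero p] [NeZero (p * M')] (hp : p.Prime) (hpM : ¬ p ∣ M')
    (A : ValuationSubring Kbar) (hA : A.LiesOverPrime p) (hCP : CuspPurityAt p M' A)
    (x : JZero (p * M'))
    (hx : SlopeProp p M' A x) : IsEisMod p M' A (p * M').primeFactors x := by
  intro ℓ hℓ
  have : NeZero (ℓ : ℕ) := ⟨ℓ.2.ne_zero⟩
  have hℓN : ¬ (ℓ : ℕ) ∣ p * M' := fun h =>
    hℓ (Nat.mem_primeFactors.mpr ⟨ℓ.2, h, NeZero.ne _⟩)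
  have hℓp : (ℓ : ℕ) ≠ p := fun h => hℓN (h ▸ dvd_mul_right _ _)
  obtain ⟨f, D, G, n, a, b, hf, hD, hD0, hn, hG, hNG⟩ := hx
  obtain ⟨Tf, hTf, hTfK⟩ := hHF (p * M') ℓ hℓN f
  obtain ⟨TG, hTG, -⟩ := hHF (p * M') ℓ hℓN G
  obtain ⟨c, hc, hUD⟩ := hU p ℓ hp hℓp
  have hf0 : f ≠ 0 := hf.1
  have hG0 : G ≠ 0 := hNG.ne_zero
  set C : FF (p * M') := algebraMap Kbar (FF (p * M')) c with hC
  have hC0 : C ≠ 0 := by simpa [hC] using hc
  set E : FF (p * M') := D ^ ((ℓ : ℕ) + 1) with hE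
  have hE0 : E ≠ 0 := pow_ne_zero _ hD0
  have h2 : TG * (C * E) ^ b = Tf ^ n * (C * E) ^ a := by
    apply Subtype.ext
    have e1 : ((C * E : FF (p * M')) : LaurentSeries Kbar) =
        kronNorm (ℓ : ℕ) (D : LaurentSeries Kbar) := by
      have hD' : (D : LaurentSeries Kbar) = Fermat.Agent.S28.unitL Kbar p := hD
      have hCE : ((C * E : FF (p * M')) : LaurentSeries Kbar) =
          cst c * (D : LaurentSeries Kbar) ^ ((ℓ : ℕ) + 1) := rfl
      rw [hCE, hD', hUD]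
    have e2 : ((TG * (C * E) ^ b : FF (p * M')) : LaurentSeries Kbar) =
        kronNorm (ℓ : ℕ) ((G * D ^ b : FF (p * M')) : LaurentSeries Kbar) := by
      have : ((G * D ^ b : FF (p * M')) : LaurentSeries Kbar) =
          (G : LaurentSeries Kbar) * (D : LaurentSeries Kbar) ^ b := rfl
      rw [this, kronNorm_mul, kronNorm_pow, ← hTG, ← e1]
      rfl
    have e3 : ((Tf ^ n * (C * E) ^ a : FF (p * M')) : LaurentSeries Kbar) =
        kronNorm (ℓ : ℕ) ((f ^ n * D ^ a : FF (p * M')) : LaurentSeries Kbar) := by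
      have : ((f ^ n * D ^ a : FF (p * M')) : LaurentSeries Kbar) =
          (f : LaurentSeries Kbar) ^ n * (D : LaurentSeries Kbar) ^ a := rfl
      rw [this, kronNorm_mul, kronNorm_pow, kronNorm_pow, ← hTf, ← e1]
      rfl
    rw [e2, e3, hG]
  have h3 : G ^ ((ℓ : ℕ) + 1) * E ^ b = f ^ (n * ((ℓ : ℕ) + 1)) * E ^ a := by
    have h3' : (G * D ^ b) ^ ((ℓ : ℕ) + 1) = (f ^ n * D ^ a) ^ ((ℓ : ℕ) + 1) := by rw [hG]
    calc G ^ ((ℓ : ℕ) + 1) * E ^ b = (G * D ^ b) ^ ((ℓ : ℕ) + 1) := by rw [hE]; ring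
      _ = (f ^ n * D ^ a) ^ ((ℓ : ℕ) + 1) := h3'
      _ = f ^ (n * ((ℓ : ℕ) + 1)) * E ^ a := by rw [hE]; ring
  set g : FF (p * M') := Tf * (f ^ ((ℓ : ℕ) + 1))⁻¹ with hg
  have hgK : IsKummerGen (p * M') p g
      (heckeOperatorBar (p * M') ℓ x - ((ℓ : ℕ) + 1) • x) := by
    have := (hTfK p x hf).mul ((hf.pow ((ℓ : ℕ) + 1)).inv)
    rwa [← sub_eq_add_neg] at this
  have hg0 : g ≠ 0 := hgK.1
  have h4 : Tf ^ n * C ^ a * G ^ ((ℓ : ℕ) + 1) = C ^ b * TG * f ^ (n * ((ℓ : ℕ) + 1)) := by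
    have hEE : E ^ a * E ^ b ≠ 0 := mul_ne_zero (pow_ne_zero _ hE0) (pow_ne_zero _ hE0)
    apply mul_right_cancel₀ hEE
    rw [mul_pow, mul_pow] at h2
    linear_combination (-(f ^ (n * ((ℓ : ℕ) + 1)) * E ^ a)) * h2 + (Tf ^ n * C ^ a * E ^ a) * h3
  have h5 : g ^ n = algebraMap Kbar (FF (p * M')) (c ^ b * (c ^ a)⁻¹) *
      (TG * (G ^ ((ℓ : ℕ) + 1))⁻¹) := by
    have hCa : C ^ a ≠ 0 := pow_ne_zero _ hC0
    have hGl : G ^ ((ℓ : ℕ) + 1) ≠ 0 := pow_ne_zero _ hG0
    have hfl : f ^ ((ℓ : ℕ) + 1) ≠ 0 := pow_ne_zero _ hf0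
    have hcc : algebraMap Kbar (FF (p * M')) (c ^ b * (c ^ a)⁻¹) = C ^ b * (C ^ a)⁻¹ := by
      rw [map_mul, map_inv₀, map_pow, map_pow]
    rw [hcc, hg, mul_pow, inv_pow, ← pow_mul, mul_comm ((ℓ : ℕ) + 1) n]
    have hfn : f ^ (n * ((ℓ : ℕ) + 1)) ≠ 0 := pow_ne_zero _ hf0
    field_simp
    linear_combination h4
  have hcb : c ^ b * (c ^ a)⁻¹ ≠ 0 := mul_ne_zero (pow_ne_zero _ hc) (inv_ne_zero (pow_ne_zero _ hc))
  have hNGn : NodeGen p M' A (g ^ n) := by
    rw [h5]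
    exact ((hHN p M' hp hpM A hA ℓ hℓN G TG hTG hNG).mul (hNG.pow _).inv).const_mul hcb
  have hNGg : NodeGen p M' A g := NodeGen.of_pow hRE hRU hRF hp hpM hA hn hg0 hNGn
  exact AddSubgroup.subset_closure ⟨g, hgK, hCP g _ hgK hNGg⟩

/-- **The W-EIS assembly at one `(p, M', A)`**, all closed leaves plugged in. -/
theorem isEisMod_of_slopeProp_at
    (p M' : ℕ) [NeZero M'] [NeZero p] [NeZero (p * M')] (hp : p.Prime) (hpM : ¬ p ∣ M')
    (A : ValuationSubring Kbar) (hA : A.LiesOverPrime p) (hCP : CuspPurityAt p M' A)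
    (x : JZero (p * M')) (hx : SlopeProp p M' A x) :
    IsEisMod p M' A (p * M').primeFactors x :=
  isEisMod_of_slopeProp_at' H398.heckeFun H699.heckeNodeGen H67.unitEis H997.redExists
    H997.redUnique H997.redField p M' hp hpM A hA hCP x hx

/-- `SlopeProp x` + CUSP at `(p, M', A)` + non-Eisenstein eigen ⟹ `x ∈ finPart`. -/
theorem mem_finPart_of_slopeProp_at
    (p M' : ℕ) [NeZero M'] [NeZero p] [NeZero (p * M')] (hp : p.Prime) (hpM : ¬ p ∣ M')
    (A : ValuationSubring Kbar) (hA : A.LiesOverPrime p) (hCP : CuspPurityAt p M' A)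
    (S : Finset ℕ) (a : ℕ → ℤ) (hNE : NonEisAway p a)
    (x : JZero (p * M')) (hpx : p • x = 0) (heig : EigenAt (p * M') S a x)
    (hx : SlopeProp p M' A x) : x ∈ finPart p M' A :=
  mem_finPart_of_eis p M' hp A S _ a hNE x hpx heig
    (isEisMod_of_slopeProp_at p M' hp hpM A hA hCP x hx)

/-- **W-EIS from its frontier, `p ≥ 5`**: CORE-OUT (with the non-Eisenstein hypothesis,
`H704.CoreOut.CoreOutNEStatement`) and CUSP (for `p ≥ 5`). -/
theorem eisSlope_of_frontier5 (hCO : H704.CoreOut.CoreOutNEStatement)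
    (hCP : CuspPurity5Statement) : EisSlopeStatement := by
  intro p M' _ _ _ hp hp5 hpM A hA S a x t hx hex ht het hχ hsh hpeu
  by_cases hNE : NonEisAway p a
  · exact ⟨(p * M').primeFactors,
      isEisMod_of_slopeProp_at p M' hp hpM A hA (hCP p M' hp hp5 hpM A hA) x
        (hCO p M' hp hp5 hpM A hA S a hNE x t hx hex ht het hχ hsh hpeu)⟩
  · exact H704.CoreOut.isEisMod_of_not_nonEis p M' A S a hNE x hx.1 hex

/-- The same from CORE-OUT without the extra hypothesis. -/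
theorem eisSlope_of_coreOut_cusp5 (hCO : CoreOutStatement) (hCP : CuspPurity5Statement) :
    EisSlopeStatement :=
  eisSlope_of_frontier5
    (fun p M' _ _ _ hp hp5 hpM A hA S a _ x t hx hex ht het hχ hsh hpeu =>
      hCO p M' hp hp5 hpM A hA S a x t hx hex ht het hχ hsh hpeu) hCP

/-- **(S4) from its frontier, `p ≥ 5`**, in the `S4For` form of `H944/WallTargets.lean`. -/
theorem s4For_of_frontier5 (hCO : H704.CoreOut.CoreOutNEStatement) (hCP : CuspPurity5Statement)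
    (p M' : ℕ) [NeZero M'] [NeZero p] [NeZero (p * M')] (hp : p.Prime) (hp5 : 5 ≤ p)
    (hpM : ¬ p ∣ M') (A : ValuationSubring Kbar) (hA : A.LiesOverPrime p) :
    S4For p M' A (finPart p M' A) :=
  s4For_of (eisSlope_of_frontier5 hCO hCP) p M' hp hp5 hpM A hA

end Fermat.Agent.Ribet.H884

end
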