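import Fermat.Agent.A2.H708.GaussLevel
import Fermat.Agent.Ribet.H944.WallTargets
import Fermat.Agent.Ribet.H764.I3Spec

/-!
# Row 38, WALL-p: the two subgroups `𝓕 = finPart`, `𝒮 = splitPart` of `J₀(pM')(ℚ̄)` and the
# SLOPE + DLOG leaves (I1, I2)   (sub-architect helper884; FROZEN, definitions + Props + glue)

`N = p·M'`, `p ∤ M'`, `A` a valuation subring of `ℚ̄` over `p`, `k = kA A` its residue field,
`FF N = ℚ̄(X₀(N)) ⊆ ℚ̄((t))`.  Everything is stated on `t`-expansions (as in `H764.I3Spec` and in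
the Prelude module `Def_ModularCurve_ReductionModL`), no model is mentioned.

## Definitions
* `IsKummerGen N p f x` : `f ∈ FF N` is a Kummer generator of `x ∈ J₀(N)`: `x = [D]`, `div f = p·D`.
* `IsRedInf N A f r`    : `r ∈ k((t))` is a reduction of `f` on the `∞`-component:
                          `f · U₂ = c · U₁` with `c ∈ ℚ̄ˣ`, `U₁, U₂ ∈ A((t))` primitive, `r · Ū₂ = Ū₁`
                          (the normal form of `A2/H708/GaussInf`; `r` is unique up to `kˣ`).
* `IsRedZero N A f r`   : the same for `w_N f` (`w_N` = Fricke involution `H528.wF`), i.e. the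
                          reduction on the `0`-component (`V₀ = V∞ ∘ w_N`, `H708.Vzero`).
* `PDivSeries p M' r`   : `r` lies in `F_k = modularFunctionFieldFullC k M'` (function field of
                          `X₀(M')_k`), `r ≠ 0`, and `p ∣ ord_Q r` at EVERY place `Q` of `F_k`
                          ("all slopes are `0`": at the smooth points this is automatic for a
                          Kummer generator, at the supersingular points `ord_Q r` IS the slope).
* `SplitSeries p r`     : `r ∈ k((t^p))` (`⇔ θ r = 0 ⇔ r` is a `p`-th power in `k((t))`).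
* `finSet`, `splitSet`  : the classes having a Kummer generator whose two reductions are
                          `PDivSeries` (resp. `PDivSeries` and `SplitSeries`);
* **`finPart p M' A`, `splitPart p M' A`** : the subgroups generated by them.
  (`FinClosedStatement`, `SplitClosedStatement`: nothing is added by taking the closure.)

## Targets / leaves
| leaf | Prop | content |
|---|---|---|
| (S1)   | `S1Statement`          | `Wall.S1For p M' A (splitPart p M' A)` : `σ f / f` has reductions `1` |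
| (S2)   | `S2Statement`          | `Wall.S2For p M' A (splitPart p M' A)` (I4 + I5, helper103) |
| RED    | `RedExistsStatement`, `RedUniqueStatement`, `RedFieldStatement` | reductions exist, are unique up to `kˣ`, lie in `k(X₀(M'))` |
| GEN    | `GenIndepStatement`    | membership in `finSet`/`splitSet` can be tested on ANY Kummer generator |
| CLOSED | `FinClosedStatement`, `SplitClosedStatement` | `finSet`, `splitSet` are subgroups |
| SYM    | `NodeSymStatement`     | node symmetry: slopes on `C∞` vanish iff slopes on `C₀` vanish |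
| HECKE  | `HeckeStableStatement` | `T_ℓ` preserves `finPart` and `splitPart` (`ℓ ∤ pM'`) |
| RES    | `ResFieldStatement`    | `k` is algebraically closed of characteristic `p` |
| DLOG   | `DlogOutStatement`     | I2: `x ∈ 𝓕 ∖ 𝒮` new eigen ⇒ nonzero eigen-`dlog` of a reduction, EXACTLY the input of `H764.I3.R3PStatement` |
| EIS    | `EisSlopeStatement`    | output of I6-core + NODE + Brandt: under the hypotheses of (S4), `T_ℓ x - (ℓ+1) x ∈ 𝓕` off a finite set |

## Proved here (glue)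
* `splitPart_le_finPart`;
* `s3For_of : ResField → DlogOut → R3P → S3For (finPart) (splitPart)`;
* `mem_finPart_of_eis`, `s4For_of : EisSlope → S4For (finPart)` (pure group theory: NE + Bezout);
* `wallTargets5_of : S1 → S2 → ResField → DlogOut → R3P → EisSlope → H944.Wall.WallTargets5Statement`.
-/

set_option autoImplicit false
set_option synthInstance.maxHeartbeats 400000
set_option maxHeartbeats 1000000

noncomputable section

namespace Fermat.Agent.Ribet.H884

open AlgebraicCurve ModularCurve HahnSeries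
open Fermat.Agent.S24 Fermat.Agent.A2.H708 Fermat.Agent.A2.H528
open Fermat.Agent.Ribet.Spec Fermat.Agent.Ribet.H944.Wall

/-- The residue field of `A`. -/
abbrev kA (A : ValuationSubring Kbar) : Type := IsLocalRing.ResidueField A

/-! ## Kummer generators and reductions -/

section Defs

variable (N : ℕ) [NeZero N]

/-- `f` is a Kummer generator of the class `x`: `x = [D]` and `div f = p · D`. -/
def IsKummerGen (p : ℕ) (f : FF N) (x : JZero N) : Prop :=
  f ≠ 0 ∧ ∃ D : Divisor.degZero (K := Kbar) (F := FF N), Pic0.mk D = x ∧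
    ∀ v : Place Kbar (FF N), v.ord f = (p : ℤ) * (D : Divisor Kbar (FF N)) v

variable (A : ValuationSubring Kbar)

/-- `r ∈ k((t))` is a reduction of `f` on the `∞`-component: `f = c · U₁ / U₂` with `c` a nonzero
constant and `U₁, U₂` primitive `A`-integral series, and `r = Ū₁ / Ū₂`. -/
def IsRedInf (f : FF N) (r : LaurentSeries (kA A)) : Prop :=
  ∃ (c : Kbar) (U₁ U₂ : LaurentSeries A), c ≠ 0 ∧ red A U₁ ≠ 0 ∧ red A U₂ ≠ 0 ∧
    (f : LaurentSeries Kbar) * incl A U₂ = cst c * incl A U₁ ∧ r * red A U₂ = red A U₁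

/-- `r ∈ k((t))` is a reduction of `f` on the `0`-component (`V₀ = V∞ ∘ w_N`). -/
def IsRedZero (f : FF N) (r : LaurentSeries (kA A)) : Prop :=
  IsRedInf N A (wF N f) r

end Defs

/-- `r` is a nonzero element of `F_k = k(X₀(M'))` all of whose orders are divisible by `p`. -/
def PDivSeries (p M' : ℕ) {k : Type} [Field k] (r : LaurentSeries k) : Prop :=
  ∃ h : modularFunctionFieldFullC k M', (h : LaurentSeries k) = r ∧ h ≠ 0 ∧
    ∀ Q : Place k (modularFunctionFieldFullC k M'), (p : ℤ) ∣ Q.ord h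

/-- `r ∈ k((t^p))`. -/
def SplitSeries (p : ℕ) {k : Type} [Field k] (r : LaurentSeries k) : Prop :=
  ∀ n : ℤ, ¬ (p : ℤ) ∣ n → r.coeff n = 0

/-! ## The two subgroups -/

section Parts

variable (p M' : ℕ) [NeZero (p * M')] (A : ValuationSubring Kbar)

/-- `f` has slopes `0` on both components. -/
def FinGen (f : FF (p * M')) : Prop :=
  ∃ r₁ r₂ : LaurentSeries (kA A), IsRedInf (p * M') A f r₁ ∧ IsRedZero (p * M') A f r₂ ∧
    PDivSeries p M' r₁ ∧ PDivSeries p M' r₂

/-- `f` has slopes `0` and `p`-th power reductions on both components. -/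
def SplitGen (f : FF (p * M')) : Prop :=
  ∃ r₁ r₂ : LaurentSeries (kA A), IsRedInf (p * M') A f r₁ ∧ IsRedZero (p * M') A f r₂ ∧
    PDivSeries p M' r₁ ∧ PDivSeries p M' r₂ ∧ SplitSeries p r₁ ∧ SplitSeries p r₂

/-- Classes with a Kummer generator of slopes `0`. -/
def finSet : Set (JZero (p * M')) :=
  {x | ∃ f : FF (p * M'), IsKummerGen (p * M') p f x ∧ FinGen p M' A f}

/-- Classes with a Kummer generator of slopes `0` and `p`-th power reductions. -/
def splitSet : Set (JZero (p * M')) :=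
  {x | ∃ f : FF (p * M'), IsKummerGen (p * M') p f x ∧ SplitGen p M' A f}

/-- **The finite part `𝓕`** of `J₀(pM')[p]` at `A`. -/
def finPart : AddSubgroup (JZero (p * M')) := AddSubgroup.closure (finSet p M' A)

/-- **The split part `𝒮`** of `J₀(pM')[p]` at `A`. -/
def splitPart : AddSubgroup (JZero (p * M')) := AddSubgroup.closure (splitSet p M' A)

theorem SplitGen.finGen {f : FF (p * M')} (h : SplitGen p M' A f) : FinGen p M' A f := by
  obtain ⟨r₁, r₂, h1, h2, h3, h4, -, -⟩ := h
  exact ⟨r₁, r₂, h1, h2, h3, h4⟩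

theorem splitSet_subset_finSet : splitSet p M' A ⊆ finSet p M' A := by
  rintro x ⟨f, hf, hs⟩
  exact ⟨f, hf, hs.finGen p M' A⟩

theorem splitPart_le_finPart : splitPart p M' A ≤ finPart p M' A :=
  AddSubgroup.closure_mono (splitSet_subset_finSet p M' A)

end Parts

/-! ## Leaves -/

/-- **(S1)** = the target `Wall.S1For` for `𝒮 = splitPart`. -/
def S1Statement : Prop :=
  ∀ (p M' : ℕ) [NeZero M'] [NeZero p] [NeZero (p * M')], p.Prime → ¬ p ∣ M' →
    ∀ A : ValuationSubring Kbar, A.LiesOverPrime p → S1For p M' A (splitPart p M' A)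

/-- **(S2)** = the target `Wall.S2For` for `𝒮 = splitPart` (I4 + I5, sub-architect helper103). -/
def S2Statement : Prop :=
  ∀ (p M' : ℕ) [NeZero M'] [NeZero p] [NeZero (p * M')], p.Prime → p ≠ 2 → ¬ p ∣ M' →
    ∀ A : ValuationSubring Kbar, A.LiesOverPrime p → S2For p M' A (splitPart p M' A)

/-- **REDEX**: every nonzero function has a reduction on each component
(`H708.exists_normal_form`). -/
def RedExistsStatement : Prop :=
  ∀ (p N : ℕ) [NeZero N], p.Prime → ∀ A : ValuationSubring Kbar, A.LiesOverPrime p →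
    ∀ f : FF N, f ≠ 0 →
      (∃ r : LaurentSeries (kA A), IsRedInf N A f r) ∧
      (∃ r : LaurentSeries (kA A), IsRedZero N A f r)

/-- **REDUNIQ**: a reduction is nonzero and unique up to a nonzero constant of `k`. -/
def RedUniqueStatement : Prop :=
  ∀ (p N : ℕ) [NeZero N], p.Prime → ∀ A : ValuationSubring Kbar, A.LiesOverPrime p →
    ∀ (f : FF N) (r r' : LaurentSeries (kA A)), IsRedInf N A f r → IsRedInf N A f r' →
      r ≠ 0 ∧ ∃ c : kA A, c ≠ 0 ∧ r' = HahnSeries.C c * r

/-- **REDFIELD** (part of MOD at `p`: the residue fields of `V∞`, `V₀` at level `pM'` are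
`k(X₀(M'))`): every reduction of a function of level `pM'` lies in
`modularFunctionFieldFullC k M'`. -/
def RedFieldStatement : Prop :=
  ∀ (p M' : ℕ) [NeZero M'] [NeZero p] [NeZero (p * M')], p.Prime → ¬ p ∣ M' →
    ∀ A : ValuationSubring Kbar, A.LiesOverPrime p →
    ∀ (f : FF (p * M')) (r : LaurentSeries (kA A)),
      (IsRedInf (p * M') A f r ∨ IsRedZero (p * M') A f r) →
      ∃ h : modularFunctionFieldFullC (kA A) M', (h : LaurentSeries (kA A)) = r

/-- **GEN**: membership can be tested on any Kummer generator. -/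
def GenIndepStatement : Prop :=
  ∀ (p M' : ℕ) [NeZero M'] [NeZero p] [NeZero (p * M')], p.Prime → ¬ p ∣ M' →
    ∀ A : ValuationSubring Kbar, A.LiesOverPrime p →
    ∀ (x : JZero (p * M')) (f : FF (p * M')), IsKummerGen (p * M') p f x →
      (x ∈ finSet p M' A → FinGen p M' A f) ∧ (x ∈ splitSet p M' A → SplitGen p M' A f)

/-- **CLOSED (𝓕)**: `finSet` is already a subgroup. -/
def FinClosedStatement : Prop :=
  ∀ (p M' : ℕ) [NeZero M'] [NeZero p] [NeZero (p * M')], p.Prime → ¬ p ∣ M' →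
    ∀ A : ValuationSubring Kbar, A.LiesOverPrime p →
    ∀ x ∈ finPart p M' A, x ∈ finSet p M' A

/-- **CLOSED (𝒮)**: `splitSet` is already a subgroup. -/
def SplitClosedStatement : Prop :=
  ∀ (p M' : ℕ) [NeZero M'] [NeZero p] [NeZero (p * M')], p.Prime → ¬ p ∣ M' →
    ∀ A : ValuationSubring Kbar, A.LiesOverPrime p →
    ∀ x ∈ splitPart p M' A, x ∈ splitSet p M' A

/-- **SYM** (node symmetry, `res₁ = - res₂`): for a Kummer generator the slopes on `C∞` vanish
iff the slopes on `C₀` vanish. -/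
def NodeSymStatement : Prop :=
  ∀ (p M' : ℕ) [NeZero M'] [NeZero p] [NeZero (p * M')], p.Prime → ¬ p ∣ M' →
    ∀ A : ValuationSubring Kbar, A.LiesOverPrime p →
    ∀ (x : JZero (p * M')) (f : FF (p * M')), IsKummerGen (p * M') p f x →
    ∀ r₁ r₂ : LaurentSeries (kA A), IsRedInf (p * M') A f r₁ → IsRedZero (p * M') A f r₂ →
      (PDivSeries p M' r₁ ↔ PDivSeries p M' r₂)

/-- **HECKE**: `T_ℓ` (`ℓ ∤ pM'`) preserves `𝓕` and `𝒮`. -/
def HeckeStableStatement : Prop :=
  ∀ (p M' : ℕ) [NeZero M'] [NeZero p] [NeZero (p * M')], p.Prime → ¬ p ∣ M' →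
    ∀ A : ValuationSubring Kbar, A.LiesOverPrime p →
    ∀ ℓ : Nat.Primes, ¬ (ℓ : ℕ) ∣ p * M' →
      (∀ x ∈ finPart p M' A, heckeOperatorBar (p * M') ℓ x ∈ finPart p M' A) ∧
      (∀ x ∈ splitPart p M' A, heckeOperatorBar (p * M') ℓ x ∈ splitPart p M' A)

/-- **RES**: the residue field of `A` is algebraically closed of characteristic `p`. -/
def ResFieldStatement : Prop :=
  ∀ (p : ℕ), p.Prime → ∀ A : ValuationSubring Kbar, A.LiesOverPrime p →
    IsAlgClosed (kA A) ∧ CharP (kA A) p

/-- **DLOG (I2)**: a new eigenclass in `𝓕 ∖ 𝒮` produces, on one of the two components, a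
reduction `h ∈ k(X₀(M'))` with `p ∣ div h` whose logarithmic derivative `g = θh / h` is a nonzero
`T_ℓ`-eigenseries with eigenvalues `a_ℓ`: exactly the input of `H764.I3.R3PStatement`. -/
def DlogOutStatement : Prop :=
  ∀ (p M' : ℕ) [NeZero M'] [NeZero p] [NeZero (p * M')], p.Prime → p ≠ 2 → ¬ p ∣ M' →
    ∀ A : ValuationSubring Kbar, A.LiesOverPrime p →
    ∀ (S : Finset ℕ) (a : ℕ → ℤ), ∀ x ∈ finPart p M' A, x ∉ splitPart p M' A →
      IsNewTors p M' x → EigenAt (p * M') S a x →
      ∃ (S' : Finset ℕ) (h : modularFunctionFieldFullC (kA A) M') (g : PowerSeries (kA A)),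
        S ⊆ S' ∧ h ≠ 0 ∧
        (∀ Q : Place (kA A) (modularFunctionFieldFullC (kA A) M'), (p : ℤ) ∣ Q.ord h) ∧
        H764.I3.IsDlog (h : LaurentSeries (kA A)) g ∧ g ≠ 0 ∧ H764.I3.IsEigenSeries M' S' a g

/-- `x` has Eisenstein slopes off `S'`: `T_ℓ x - (ℓ + 1) x ∈ 𝓕`. -/
def IsEisMod (p M' : ℕ) [NeZero (p * M')] (A : ValuationSubring Kbar) (S' : Finset ℕ)
    (x : JZero (p * M')) : Prop :=
  ∀ ℓ : Nat.Primes, (ℓ : ℕ) ∉ S' →
    heckeOperatorBar (p * M') ℓ x - ((ℓ : ℕ) + 1) • x ∈ finPart p M' A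

/-- **EIS** (output of I6-core + NODE + Hecke/Brandt equivariance of the slopes): under the
hypotheses of (S4) — WITHOUT the non-Eisenstein hypothesis — the slope vector of `x` is a multiple
of the slope vector of the modular unit `Δ(z)/Δ(pz)`, which is Eisenstein; hence
`T_ℓ x - (ℓ+1) x ∈ 𝓕` off a finite set. -/
def EisSlopeStatement : Prop :=
  ∀ (p M' : ℕ) [NeZero M'] [NeZero p] [NeZero (p * M')], p.Prime → 5 ≤ p → ¬ p ∣ M' →
    ∀ A : ValuationSubring Kbar, A.LiesOverPrime p →
    ∀ (S : Finset ℕ) (a : ℕ → ℤ) (x t : JZero (p * M')),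
      IsNewTors p M' x → EigenAt (p * M') S a x →
      IsNewTors p M' t → EigenAt (p * M') S a t →
      (∀ σ ∈ A.inertiaSubgroupIn ℚ, ∀ c : ℕ, CycloAt p σ c → σ • t = c • t) →
      (∀ σ ∈ A.inertiaSubgroupIn ℚ, ∃ n : ℕ, σ • x = x + n • t) →
      (∀ σ : GQ, PeuFixes A p σ → σ • x = x) →
      ∃ S' : Finset ℕ, IsEisMod p M' A S' x

/-! ## Glue -/

/-- **(S3)** from DLOG (I2) and `R3P` (I3). -/
theorem s3For_of (hR : ResFieldStatement) (hD : DlogOutStatement)
    (h3 : H764.I3.R3PStatement)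
    (p M' : ℕ) [NeZero M'] [NeZero p] [NeZero (p * M')] (hp : p.Prime) (hp2 : p ≠ 2)
    (hpM : ¬ p ∣ M') (A : ValuationSubring Kbar) (hA : A.LiesOverPrime p) :
    S3For p M' (finPart p M' A) (splitPart p M' A) := by
  intro S a x hx hxS hnew heig
  obtain ⟨S', h, g, hSS', h0, hdiv, hdlog, hg0, heigs⟩ :=
    hD p M' hp hp2 hpM A hA S a x hx hxS hnew heig
  obtain ⟨hac, hch⟩ := hR p hp A hA
  obtain ⟨S'', hS'', hlow⟩ := h3 p M' hp hpM (kA A) S' a h h0 hdiv g hdlog hg0 heigs
  exact ⟨S'', hSS'.trans hS'', hlow⟩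

/-- Pure group theory: an eigenclass with non-Eisenstein eigenvalues and Eisenstein slopes has
slopes `0`. -/
theorem mem_finPart_of_eis (p M' : ℕ) [NeZero (p * M')] (hp : p.Prime)
    (A : ValuationSubring Kbar) (S S' : Finset ℕ) (a : ℕ → ℤ) (hNE : NonEisAway p a)
    (x : JZero (p * M')) (hpx : p • x = 0) (heig : EigenAt (p * M') S a x)
    (hE : IsEisMod p M' A S' x) : x ∈ finPart p M' A := by
  obtain ⟨ℓ, hℓ, hℓS, hndvd⟩ := hNE (S ∪ S')
  have hℓ1 : ℓ ∉ S := fun h => hℓS (Finset.mem_union_left _ h)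
  have hℓ2 : ℓ ∉ S' := fun h => hℓS (Finset.mem_union_right _ h)
  have h1 := hE ⟨ℓ, hℓ⟩ hℓ2
  rw [heig ⟨ℓ, hℓ⟩ hℓ1] at h1
  -- `(a ℓ - (ℓ + 1)) • x ∈ 𝓕`
  have h2 : (a ℓ - ((ℓ : ℤ) + 1)) • x ∈ finPart p M' A := by
    have e : (a ℓ - ((ℓ : ℤ) + 1)) • x = a ℓ • x - ((ℓ : ℕ) + 1) • x := by
      have h3 : ((ℓ : ℤ) + 1) = (((ℓ : ℕ) + 1 : ℕ) : ℤ) := by push_cast; ring
      rw [sub_smul, h3, natCast_zsmul]
    rw [e]
    exact h1
  -- Bezout
  have hcop : IsCoprime (a ℓ - ((ℓ : ℤ) + 1)) (p : ℤ) := by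
    have hpp : Prime (p : ℤ) := Nat.prime_iff_prime_int.mp hp
    exact (IsCoprime.symm ((Prime.coprime_iff_not_dvd hpp).mpr hndvd))
  obtain ⟨u, v, huv⟩ := hcop
  have hx : x = u • ((a ℓ - ((ℓ : ℤ) + 1)) • x) + v • ((p : ℤ) • x) := by
    rw [smul_smul, smul_smul, ← add_zsmul, huv, one_zsmul]
  rw [hx]
  refine (finPart p M' A).add_mem ((finPart p M' A).zsmul_mem h2 u) ?_
  have : ((p : ℤ) • x) = 0 := by rw [natCast_zsmul]; exact hpx
  rw [this, smul_zero]
  exact (finPart p M' A).zero_mem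

/-- **(S4)** from EIS, for `p ≥ 5`. -/
theorem s4For_of (hE : EisSlopeStatement)
    (p M' : ℕ) [NeZero M'] [NeZero p] [NeZero (p * M')] (hp : p.Prime) (hp5 : 5 ≤ p)
    (hpM : ¬ p ∣ M') (A : ValuationSubring Kbar) (hA : A.LiesOverPrime p) :
    S4For p M' A (finPart p M' A) := by
  intro S a hNE x t hx hex ht het hχ hsh hpeu
  obtain ⟨S', hS'⟩ := hE p M' hp hp5 hpM A hA S a x t hx hex ht het hχ hsh hpeu
  exact mem_finPart_of_eis p M' hp A S S' a hNE x hx.1 hex hS'

/-- **The four targets for `p ≥ 5`** (`H944.Wall.WallTargets5Statement`, hence S44 by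
`H944.Wall.S44_of_targets5`) from the leaves of the four sub-architects. -/
theorem wallTargets5_of (h1 : S1Statement) (h2 : S2Statement) (hR : ResFieldStatement)
    (hD : DlogOutStatement) (h3 : H764.I3.R3PStatement) (hE : EisSlopeStatement) :
    WallTargets5Statement := by
  intro p M' _ _ _ hp hp5 hpM A hA
  have hp2 : p ≠ 2 := by omega
  exact ⟨finPart p M' A, splitPart p M' A, h1 p M' hp hpM A hA, h2 p M' hp hp2 hpM A hA,
    s3For_of hR hD h3 p M' hp hp2 hpM A hA, s4For_of hE p M' hp hp5 hpM A hA⟩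

end Fermat.Agent.Ribet.H884

end
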