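import Fermat.Agent.Ribet.H884.SlopeS1

/-!
# Row 38, WALL-p: **CLOSED** — `finSet` and `splitSet` are subgroups  (helper884)

* calculus of Kummer generators: `isKummerGen_one`, `IsKummerGen.mul`, `IsKummerGen.inv`;
* calculus of reductions: `isRedInf_one`, `IsRedInf.mul`, `IsRedInf.inv` (same for `IsRedZero`);
* `PDivSeries.mul`, `PDivSeries.inv`;
* `splitSeries_iff` : `SplitSeries p r ↔ r ∈ range (t ↦ t^p)`; `SplitSeries.mul`, `SplitSeries.inv`;
* `finClosed : FinClosedStatement`, `splitClosed : SplitClosedStatement`.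
-/

set_option autoImplicit false
set_option synthInstance.maxHeartbeats 400000
set_option maxHeartbeats 1000000
set_option linter.unusedSectionVars false

noncomputable section

namespace Fermat.Agent.Ribet.H884

open AlgebraicCurve ModularCurve HahnSeries
open Fermat.Agent.S24 Fermat.Agent.A2.H708 Fermat.Agent.A2.H528 Fermat.Agent.A2.H129
open Fermat.Agent.Ribet.Spec Fermat.Agent.Ribet.H944.Wall

/-! ## Kummer generators -/

section Kummer

variable {N : ℕ} [NeZero N] {p : ℕ}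

theorem isKummerGen_one : IsKummerGen N p (1 : FF N) 0 := by
  refine ⟨one_ne_zero, 0, rfl, fun v => ?_⟩
  rw [Place.ord_one]
  simp

theorem IsKummerGen.mul {f f' : FF N} {x x' : JZero N} (h : IsKummerGen N p f x)
    (h' : IsKummerGen N p f' x') : IsKummerGen N p (f * f') (x + x') := by
  obtain ⟨hf, D, rfl, hD⟩ := h
  obtain ⟨hf', D', rfl, hD'⟩ := h'
  refine ⟨mul_ne_zero hf hf', D + D', rfl, fun v => ?_⟩
  rw [Place.ord_mul v hf hf', hD, hD']
  simp only [AddSubgroup.coe_add, Finsupp.add_apply]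
  ring

theorem IsKummerGen.inv {f : FF N} {x : JZero N} (h : IsKummerGen N p f x) :
    IsKummerGen N p f⁻¹ (-x) := by
  obtain ⟨hf, D, rfl, hD⟩ := h
  refine ⟨inv_ne_zero hf, -D, rfl, fun v => ?_⟩
  rw [Place.ord_inv, hD]
  simp only [AddSubgroup.coe_neg, Finsupp.neg_apply]
  ring

end Kummer

/-! ## Reductions -/

section Red

variable {N : ℕ} [NeZero N] {A : ValuationSubring Kbar}

theorem isRedInf_one : IsRedInf N A (1 : FF N) 1 := by
  refine ⟨1, 1, 1, one_ne_zero, ?_, ?_, ?_, ?_⟩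
  · rw [map_one]; exact one_ne_zero
  · rw [map_one]; exact one_ne_zero
  · rw [map_one, cst_one, mul_one, mul_one]
    rfl
  · rw [map_one, mul_one]

theorem IsRedInf.ne_zero {f : FF N} {r : LaurentSeries (kA A)} (h : IsRedInf N A f r) :
    r ≠ 0 := by
  obtain ⟨c, U₁, U₂, hc, h₁, h₂, he, hr⟩ := h
  rintro rfl
  rw [zero_mul] at hr
  exact h₁ hr.symm

theorem IsRedInf.fun_ne_zero {f : FF N} {r : LaurentSeries (kA A)} (h : IsRedInf N A f r) :
    (f : LaurentSeries Kbar) ≠ 0 := by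
  obtain ⟨c, U₁, U₂, hc, h₁, h₂, he, hr⟩ := h
  intro h0
  rw [h0, zero_mul] at he
  rcases mul_eq_zero.mp he.symm with h' | h'
  · exact cst_ne_zero hc h'
  · exact incl_ne_zero A (ne_zero_of_red_ne_zero A h₁) h'

theorem IsRedInf.mul {f f' : FF N} {r r' : LaurentSeries (kA A)} (h : IsRedInf N A f r)
    (h' : IsRedInf N A f' r') : IsRedInf N A (f * f') (r * r') := by
  obtain ⟨c, U₁, U₂, hc, h₁, h₂, he, hr⟩ := h
  obtain ⟨c', U₁', U₂', hc', h₁', h₂', he', hr'⟩ := h'
  refine ⟨c * c', U₁ * U₁', U₂ * U₂', mul_ne_zero hc hc', ?_, ?_, ?_, ?_⟩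
  · rw [map_mul]; exact mul_ne_zero h₁ h₁'
  · rw [map_mul]; exact mul_ne_zero h₂ h₂'
  · have hcoe : ((f * f' : FF N) : LaurentSeries Kbar) =
        (f : LaurentSeries Kbar) * (f' : LaurentSeries Kbar) := rfl
    rw [hcoe, map_mul (incl A), map_mul (incl A), cst_mul]
    calc (f : LaurentSeries Kbar) * (f' : LaurentSeries Kbar) * (incl A U₂ * incl A U₂')
        = ((f : LaurentSeries Kbar) * incl A U₂) * ((f' : LaurentSeries Kbar) * incl A U₂') := by
          ring
      _ = (cst c * incl A U₁) * (cst c' * incl A U₁') := by rw [he, he']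
      _ = cst c * cst c' * (incl A U₁ * incl A U₁') := by ring
  · rw [map_mul, map_mul, ← hr, ← hr']
    ring

theorem IsRedInf.inv {f : FF N} {r : LaurentSeries (kA A)} (h : IsRedInf N A f r) :
    IsRedInf N A f⁻¹ r⁻¹ := by
  have hr0 := h.ne_zero
  have hf0 := h.fun_ne_zero
  obtain ⟨c, U₁, U₂, hc, h₁, h₂, he, hr⟩ := h
  refine ⟨c⁻¹, U₂, U₁, inv_ne_zero hc, h₂, h₁, ?_, ?_⟩
  · have hcoe : ((f⁻¹ : FF N) : LaurentSeries Kbar) = (f : LaurentSeries Kbar)⁻¹ := by
      rw [IntermediateField.coe_inv]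
    rw [hcoe]
    exact normal_form_inv hf0 hc he
  · rw [← hr, ← mul_assoc, inv_mul_cancel₀ hr0, one_mul]

theorem isRedZero_one : IsRedZero N A (1 : FF N) 1 := by
  unfold IsRedZero
  rw [map_one]
  exact isRedInf_one

theorem IsRedZero.mul {f f' : FF N} {r r' : LaurentSeries (kA A)} (h : IsRedZero N A f r)
    (h' : IsRedZero N A f' r') : IsRedZero N A (f * f') (r * r') := by
  unfold IsRedZero at h h' ⊢
  rw [map_mul]
  exact h.mul h'

theorem IsRedZero.inv {f : FF N} {r : LaurentSeries (kA A)} (h : IsRedZero N A f r) :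
    IsRedZero N A f⁻¹ r⁻¹ := by
  unfold IsRedZero at h ⊢
  rw [map_inv₀]
  exact h.inv

end Red

/-! ## `PDivSeries` -/

section PDiv

variable {p M' : ℕ} {k : Type} [Field k]

theorem PDivSeries.mul {r r' : LaurentSeries k} (h : PDivSeries p M' r)
    (h' : PDivSeries p M' r') : PDivSeries p M' (r * r') := by
  obtain ⟨a, rfl, ha, hdiv⟩ := h
  obtain ⟨a', rfl, ha', hdiv'⟩ := h'
  refine ⟨a * a', rfl, mul_ne_zero ha ha', fun Q => ?_⟩
  rw [Place.ord_mul Q ha ha']
  exact dvd_add (hdiv Q) (hdiv' Q)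

theorem PDivSeries.inv {r : LaurentSeries k} (h : PDivSeries p M' r) :
    PDivSeries p M' r⁻¹ := by
  obtain ⟨a, rfl, ha, hdiv⟩ := h
  refine ⟨a⁻¹, by rw [IntermediateField.coe_inv], inv_ne_zero ha, fun Q => ?_⟩
  rw [Place.ord_inv]
  exact (dvd_neg).mpr (hdiv Q)

end PDiv

/-! ## `SplitSeries` -/

section Split

variable {p : ℕ} [NeZero p] {k : Type} [Field k]

/-- `r ∈ k((t^p))` iff `r` is in the image of `t ↦ t^p`. -/
theorem splitSeries_iff (r : LaurentSeries k) :
    SplitSeries p r ↔ ∃ s : LaurentSeries k, qExpand k p s = r := by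
  constructor
  · intro h
    have hp0 : (0 : ℤ) < (p : ℤ) := by exact_mod_cast Nat.pos_of_ne_zero (NeZero.ne p)
    -- the coefficient function of `s`
    have hbdd : BddBelow (Function.support fun n : ℤ => r.coeff ((p : ℤ) * n)) := by
      set b : ℤ := r.order with hb
      refine ⟨min b 0, fun n hn => ?_⟩
      have hn' : r.coeff ((p : ℤ) * n) ≠ 0 := hn
      have h1 : b ≤ (p : ℤ) * n := HahnSeries.order_le_of_coeff_ne_zero hn'
      by_contra hlt
      rw [not_le] at hlt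
      have hn0 : n < 0 := lt_of_lt_of_le hlt (min_le_right _ _)
      have hnb : n < b := lt_of_lt_of_le hlt (min_le_left _ _)
      have h2 : (p : ℤ) * n ≤ n := by nlinarith
      omega
    refine ⟨HahnSeries.ofSuppBddBelow _ hbdd, ?_⟩
    ext n
    by_cases hn : (p : ℤ) ∣ n
    · obtain ⟨m, rfl⟩ := hn
      rw [qExpand_coeff_mul]
      rfl
    · rw [h n hn]
      apply HahnSeries.embDomain_of_notMem_range
      rintro ⟨m, hm⟩
      exact hn ⟨m, hm.symm⟩
  · rintro ⟨s, rfl⟩ n hn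
    apply HahnSeries.embDomain_of_notMem_range
    rintro ⟨m, hm⟩
    exact hn ⟨m, hm.symm⟩

theorem SplitSeries.mul {r r' : LaurentSeries k} (h : SplitSeries p r)
    (h' : SplitSeries p r') : SplitSeries p (r * r') := by
  obtain ⟨s, rfl⟩ := (splitSeries_iff r).mp h
  obtain ⟨s', rfl⟩ := (splitSeries_iff r').mp h'
  exact (splitSeries_iff _).mpr ⟨s * s', map_mul _ _ _⟩

theorem SplitSeries.inv {r : LaurentSeries k} (h : SplitSeries p r) :
    SplitSeries p r⁻¹ := by
  obtain ⟨s, rfl⟩ := (splitSeries_iff r).mp h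
  exact (splitSeries_iff _).mpr ⟨s⁻¹, map_inv₀ _ _⟩

end Split

/-! ## The two sets are subgroups -/

section Closed

variable {p M' : ℕ} [NeZero p] [NeZero (p * M')] {A : ValuationSubring Kbar}

theorem finGen_one : FinGen p M' A (1 : FF (p * M')) :=
  ⟨1, 1, isRedInf_one, isRedZero_one, pDivSeries_one p M', pDivSeries_one p M'⟩

theorem FinGen.mul {f f' : FF (p * M')} (h : FinGen p M' A f) (h' : FinGen p M' A f') :
    FinGen p M' A (f * f') := by
  obtain ⟨r₁, r₂, h1, h2, h3, h4⟩ := h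
  obtain ⟨r₁', r₂', h1', h2', h3', h4'⟩ := h'
  exact ⟨r₁ * r₁', r₂ * r₂', h1.mul h1', h2.mul h2', h3.mul h3', h4.mul h4'⟩

theorem FinGen.inv {f : FF (p * M')} (h : FinGen p M' A f) : FinGen p M' A f⁻¹ := by
  obtain ⟨r₁, r₂, h1, h2, h3, h4⟩ := h
  exact ⟨r₁⁻¹, r₂⁻¹, h1.inv, h2.inv, h3.inv, h4.inv⟩

theorem splitGen_one : SplitGen p M' A (1 : FF (p * M')) :=
  ⟨1, 1, isRedInf_one, isRedZero_one, pDivSeries_one p M', pDivSeries_one p M',
    splitSeries_one p, splitSeries_one p⟩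

theorem SplitGen.mul {f f' : FF (p * M')} (h : SplitGen p M' A f) (h' : SplitGen p M' A f') :
    SplitGen p M' A (f * f') := by
  obtain ⟨r₁, r₂, h1, h2, h3, h4, h5, h6⟩ := h
  obtain ⟨r₁', r₂', h1', h2', h3', h4', h5', h6'⟩ := h'
  exact ⟨r₁ * r₁', r₂ * r₂', h1.mul h1', h2.mul h2', h3.mul h3', h4.mul h4', h5.mul h5',
    h6.mul h6'⟩

theorem SplitGen.inv {f : FF (p * M')} (h : SplitGen p M' A f) : SplitGen p M' A f⁻¹ := by
  obtain ⟨r₁, r₂, h1, h2, h3, h4, h5, h6⟩ := h
  exact ⟨r₁⁻¹, r₂⁻¹, h1.inv, h2.inv, h3.inv, h4.inv, h5.inv, h6.inv⟩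

/-- `finSet` is closed under the group operations. -/
theorem mem_finSet_of_mem_finPart {x : JZero (p * M')} (hx : x ∈ finPart p M' A) :
    x ∈ finSet p M' A := by
  unfold finPart at hx
  induction hx using AddSubgroup.closure_induction with
  | mem x hx => exact hx
  | zero => exact ⟨1, isKummerGen_one, finGen_one⟩
  | add x y _ _ hx hy =>
    obtain ⟨f, hf, hF⟩ := hx
    obtain ⟨f', hf', hF'⟩ := hy
    exact ⟨f * f', hf.mul hf', hF.mul hF'⟩
  | neg x _ hx =>
    obtain ⟨f, hf, hF⟩ := hx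
    exact ⟨f⁻¹, hf.inv, hF.inv⟩

/-- `splitSet` is closed under the group operations. -/
theorem mem_splitSet_of_mem_splitPart {x : JZero (p * M')} (hx : x ∈ splitPart p M' A) :
    x ∈ splitSet p M' A := by
  unfold splitPart at hx
  induction hx using AddSubgroup.closure_induction with
  | mem x hx => exact hx
  | zero => exact ⟨1, isKummerGen_one, splitGen_one⟩
  | add x y _ _ hx hy =>
    obtain ⟨f, hf, hF⟩ := hx
    obtain ⟨f', hf', hF'⟩ := hy
    exact ⟨f * f', hf.mul hf', hF.mul hF'⟩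
  | neg x _ hx =>
    obtain ⟨f, hf, hF⟩ := hx
    exact ⟨f⁻¹, hf.inv, hF.inv⟩

end Closed

/-- **CLOSED (𝓕)**. -/
theorem finClosed : FinClosedStatement := by
  intro p M' _ _ _ _ _ A _ x hx
  exact mem_finSet_of_mem_finPart hx

/-- **CLOSED (𝒮)**. -/
theorem splitClosed : SplitClosedStatement := by
  intro p M' _ _ _ _ _ A _ x hx
  exact mem_splitSet_of_mem_splitPart hx

end Fermat.Agent.Ribet.H884

end
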