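import Fermat.Agent.Ribet.H884.SlopeSpec
import Fermat.Agent.A2.H129.Kummer

/-!
# Row 38, WALL-p: **(S1)** for `𝒮 = splitPart`  (helper884)

`s1 : S1Statement`: for `x ∈ J₀(pM')[p]` and `σ` in the inertia group of `A`, the class
`σ x - x` lies in `splitPart p M' A`.

Proof: `x ↔ f` (Kummer generator), `σ x - x ↔ σ f / f`.  In normal form `f · U₂ = c · U₁`
(`H708.exists_normal_form`); `σ` acts on the coefficients and trivially on the residue field, so
`(σ f / f) · (σU₂ · U₁) = (σc / c) · (σU₁ · U₂)` is a normal form whose reduction is `1`.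
The same for `w_N f` (`w_N` commutes with `σ`).  The series `1` has divisor `0` and lies in
`k((t^p))`.
-/

set_option autoImplicit false
set_option synthInstance.maxHeartbeats 400000
set_option maxHeartbeats 1000000
set_option linter.unusedSectionVars false

noncomputable section

namespace Fermat.Agent.Ribet.H884

open AlgebraicCurve ModularCurve HahnSeries
open Fermat.Agent.S24 Fermat.Agent.A2.H708 Fermat.Agent.A2.H528 Fermat.Agent.A2.H129
open Fermat.Agent.Ribet.Spec Fermat.Agent.Ribet.H944.Wall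

section

variable {N : ℕ} [NeZero N]

/-- Every `p`-torsion class has a Kummer generator. -/
theorem exists_isKummerGen (p : ℕ) (x : JZero N) (hx : p • x = 0) :
    ∃ f : FF N, IsKummerGen N p f x := by
  obtain ⟨D, rfl⟩ := Pic0.mk_surjective x
  have hprin : ((p • D : Divisor.degZero (K := Kbar) (F := FF N)) : Divisor Kbar (FF N)) ∈
      Divisor.principal (K := Kbar) (F := FF N) := by
    have h0 : Pic0.mk (p • D) = 0 := hx
    have := (QuotientAddGroup.eq_zero_iff (p • D)).1 h0
    simpa [AddSubgroup.mem_addSubgroupOf] using this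
  obtain ⟨f, hf, hfD⟩ := hprin
  refine ⟨f, hf, D, rfl, fun v => ?_⟩
  rw [← hfD v]
  simp [Finsupp.smul_apply]

/-- `σ f / f` is a Kummer generator of `σ x - x`. -/
theorem isKummerGen_galSubOne (p : ℕ) (σ : Kbar ≃ₐ[ℚ] Kbar) {f : FF N} {x : JZero N}
    (h : IsKummerGen N p f x) : IsKummerGen N p (gal N σ f * f⁻¹) (σ • x - x) := by
  obtain ⟨hf, D, rfl, hD⟩ := h
  set g : SemilinearAut Kbar (FF N) := arithmeticGalois (modularFunctionFieldFull N) σ with hg
  have hτf : gal N σ f ≠ 0 := by simpa using hf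
  refine ⟨mul_ne_zero hτf (inv_ne_zero hf), SemilinearAut.degZeroSMulHom g D - D, ?_, ?_⟩
  · show _ = g • Pic0.mk D - Pic0.mk D
    rw [SemilinearAut.pic0_smul_mk]
    rfl
  · intro v
    have h1 : v.ord (gal N σ f) = (g⁻¹ • v).ord f := ord_smul_eq g v f
    rw [ord_div v hτf hf, h1, hD, hD]
    simp only [AddSubgroupClass.coe_sub, SemilinearAut.coe_degZeroSMulHom, Finsupp.sub_apply,
      SemilinearAut.divisor_smul_apply]
    ring

variable {A : ValuationSubring Kbar} {p : ℕ}

/-- **Key computation**: `σ f / f` has reduction `1` on the `∞`-component. -/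
theorem isRedInf_galSubOne (hp0 : p ≠ 0) (hA : (p : Kbar) ∈ A.nonunits)
    {σ : Kbar ≃ₐ[ℚ] Kbar} (hσ : σ ∈ A.inertiaSubgroupIn ℚ) {f : FF N} (hf : f ≠ 0) :
    IsRedInf N A (gal N σ f * f⁻¹) 1 := by
  have hf' : (f : LaurentSeries Kbar) ≠ 0 := fun h => hf (Subtype.ext h)
  obtain ⟨c, U₁, U₂, hc, h₁, h₂, -, -, he⟩ :=
    exists_normal_form (A := A) (intGen_full N)
      (attainsMax_Qbar hp0 hA (modularFunctionFieldFull N)) f.2 hf'
  set U₁' := coeffMap (resA hσ) U₁ with hU₁'
  set U₂' := coeffMap (resA hσ) U₂ with hU₂'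
  have hτ : ((gal N σ f : FF N) : LaurentSeries Kbar) * incl A U₂' = cst (σ c) * incl A U₁' := by
    rw [hU₁', hU₂', incl_coeffMap_resA, incl_coeffMap_resA]
    show coeffMap (σ : Kbar →+* Kbar) (f : LaurentSeries Kbar) *
      coeffMap (σ : Kbar →+* Kbar) (incl A U₂) = _
    rw [← map_mul, he, map_mul]
    congr 1
    exact coeffMap_algebraMap (σ : Kbar →+* Kbar) c
  have hσc : σ c ≠ 0 := by simpa using hc
  refine ⟨σ c / c, U₁' * U₂, U₂' * U₁, div_ne_zero hσc hc, ?_, ?_, ?_, ?_⟩
  · rw [map_mul, hU₁', red_coeffMap_resA]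
    exact mul_ne_zero h₁ h₂
  · rw [map_mul, hU₂', red_coeffMap_resA]
    exact mul_ne_zero h₂ h₁
  · have hF : incl A U₁ = (f : LaurentSeries Kbar) * incl A U₂ * (cst c)⁻¹ := by
      rw [he, mul_comm (cst c), mul_assoc, mul_inv_cancel₀ (cst_ne_zero hc), mul_one]
    have hcoe : ((gal N σ f * f⁻¹ : FF N) : LaurentSeries Kbar) =
        ((gal N σ f : FF N) : LaurentSeries Kbar) * (f : LaurentSeries Kbar)⁻¹ := by
      rw [IntermediateField.coe_mul, IntermediateField.coe_inv]
    have e1 : ((gal N σ f : FF N) : LaurentSeries Kbar) * (f : LaurentSeries Kbar)⁻¹ *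
        (incl A U₂' * incl A U₁) =
        (((gal N σ f : FF N) : LaurentSeries Kbar) * incl A U₂') *
          ((f : LaurentSeries Kbar)⁻¹ * incl A U₁) := by ring
    have e2 : (f : LaurentSeries Kbar)⁻¹ * incl A U₁ = incl A U₂ * (cst c)⁻¹ := by
      rw [hF, ← mul_assoc, ← mul_assoc, inv_mul_cancel₀ hf', one_mul]
    have e3 : cst (σ c / c) = cst (σ c) * (cst c)⁻¹ := by
      rw [cst, cst, cst, map_div₀, div_eq_mul_inv]
    rw [hcoe, map_mul (incl A), map_mul (incl A), e1, hτ, e2, e3]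
    ring
  · rw [one_mul, map_mul, map_mul, hU₁', hU₂', red_coeffMap_resA, red_coeffMap_resA, mul_comm]

/-- The same on the `0`-component. -/
theorem isRedZero_galSubOne (hp0 : p ≠ 0) (hA : (p : Kbar) ∈ A.nonunits)
    {σ : Kbar ≃ₐ[ℚ] Kbar} (hσ : σ ∈ A.inertiaSubgroupIn ℚ) {f : FF N} (hf : f ≠ 0) :
    IsRedZero N A (gal N σ f * f⁻¹) 1 := by
  have hw : wF N f ≠ 0 := fun h => hf ((map_eq_zero_iff _ (wF N).injective).mp h)
  have e : wF N (gal N σ f * f⁻¹) = gal N σ (wF N f) * (wF N f)⁻¹ := by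
    rw [map_mul, map_inv₀, wF_gal]
  unfold IsRedZero
  rw [e]
  exact isRedInf_galSubOne hp0 hA hσ hw

end

/-- The series `1` has all orders divisible by `p`. -/
theorem pDivSeries_one (p M' : ℕ) {k : Type} [Field k] :
    PDivSeries p M' (1 : LaurentSeries k) := by
  refine ⟨1, rfl, one_ne_zero, fun Q => ?_⟩
  have h := ord_algebraMap_eq_zero Q (1 : k)
  rw [map_one] at h
  rw [h]
  exact dvd_zero _

/-- The series `1` lies in `k((t^p))`. -/
theorem splitSeries_one (p : ℕ) {k : Type} [Field k] :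
    SplitSeries p (1 : LaurentSeries k) := by
  intro n hn
  rw [HahnSeries.coeff_one]
  have : n ≠ 0 := by
    rintro rfl
    exact hn (dvd_zero _)
  simp [this]

/-- **(S1)**: inertia acts trivially on `J₀(pM')[p] / 𝒮`. -/
theorem s1 : S1Statement := by
  intro p M' _ _ _ hp hpM A hA x hpx σ hσ
  obtain ⟨f, hf⟩ := exists_isKummerGen (N := p * M') p x hpx
  apply AddSubgroup.subset_closure
  exact ⟨gal (p * M') σ f * f⁻¹, isKummerGen_galSubOne p σ hf, 1, 1,
    isRedInf_galSubOne hp.ne_zero hA hσ hf.1, isRedZero_galSubOne hp.ne_zero hA hσ hf.1,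
    pDivSeries_one p M', pDivSeries_one p M', splitSeries_one p, splitSeries_one p⟩

end Fermat.Agent.Ribet.H884

end
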