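import Fermat.Agent.Ribet.H884.S44OfAtP

/-!
# Row RIBET: the at-`p` wall in its minimal ("occurs") form

`Spec.AtPPackageStatement` asks for subgroups `𝒲 ≤ 𝓕` and a Hecke-equivariant `β : 𝓕 → J₀(M')²`
with `ker β ⊆ 𝒲`.  The natural candidate `β = (α_*, β_*)` (the two degeneracy maps) does NOT
have this property in the situation of interest (see `coord/RIBET-atp-helper884.md`), and what
the glue really consumes is much weaker:

* `AtPOccursStatement` : an equivariant Hecke-eigen embedding `E[p] ↪ J₀(pM')[p]` of the Frey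
  torsion (`p ∣ abc`, `E[p]` irreducible) forces the eigensystem to occur in `J₀(M')[p]`.

This file proves (sorry-free)
* `atPOccurs_of_package : AtPPackageStatement → NMT → PL → AtPOccursStatement`
  (so nothing is lost: the package implies the minimal form), and
* `S44_of_atPOccurs : BLR → AtPOccursStatement → R3 → R3' → S44Statement`.
-/

set_option autoImplicit false

open WeierstrassCurve WeierstrassCurve.Affine WeierstrassCurve.Affine.Point
open CuspForm ModularFormClass UpperHalfPlane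

namespace Fermat.Agent.Ribet.H884

open Spec ModularCurve

/-- **(A3min)** Mazur–Ribet on `J₀(pM')`, minimal form.  If the `p`-torsion of the Frey curve
(`p ∣ abc`, irreducible) embeds Galois-equivariantly in `J₀(pM')` with `T_ℓ` acting through
`a ℓ` for `ℓ ∉ S`, then the eigensystem `a` occurs in `J₀(M')[p]` away from a finite set
`S' ⊇ S`. -/
def AtPOccursStatement : Prop :=
  ∀ (P : FreyPackage) (M' : ℕ) [NeZero M'] [NeZero (P.p * M')], ¬ P.p ∣ M' →
    (P.p : ℤ) ∣ P.a * P.b * P.c →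
    GaloisRepIsIrreducible (K := AlgebraicClosure ℚ) ℚ P.freyCurve P.p →
    ∀ (S : Finset ℕ) (a : ℕ → ℤ), FreyEmbedsIn P (P.p * M') S a →
      ∃ S' : Finset ℕ, S ⊆ S' ∧ OccursIn M' P.p S' a

/-- The package of `Spec` implies the minimal form (this is the algebra of piece P1p). -/
theorem atPOccurs_of_package (hA : AtPPackageStatement)
    (hNMT : NotMultiplicativeTypeStatement) (hPl : PlacesStatement) :
    AtPOccursStatement := by
  intro P k _ _ hpk hpabc _ S a hemb
  obtain ⟨ι, hinj, hgal, hhecke⟩ := hemb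
  obtain ⟨A, hAp, -⟩ := hPl P.p P.pp
  obtain ⟨𝒲, 𝓕, β, -, htors, hmult, hβT, hβker, hflat⟩ := hA P k hpk hpabc A hAp
  have hι𝓕 : ∀ x, ι x ∈ 𝓕 := hflat ι hgal
  have hkpos : k ≠ 0 := NeZero.ne k
  by_cases hcase : ∀ x : FreyTorsion P, β ⟨ι x, hι𝓕 x⟩ = 0
  · exfalso
    refine hNMT P A hAp ?_
    intro σ hσ c hc x
    apply hinj
    rw [hgal, map_nsmul]
    exact hmult σ hσ c hc (ι x) (hβker ⟨ι x, hι𝓕 x⟩ (hcase x))
  · rw [not_forall] at hcase
    obtain ⟨x, hx⟩ := hcase
    set x' : 𝓕 := ⟨ι x, hι𝓕 x⟩ with hx'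
    have hkp0 : k * P.p ≠ 0 := Nat.mul_ne_zero hkpos P.pp.ne_zero
    have hptors : P.p • β x' = 0 := by
      rw [← map_nsmul]
      have : P.p • x' = 0 := by
        apply Subtype.ext
        simpa using htors (ι x) (hι𝓕 x)
      rw [this, _root_.map_zero]
    refine ⟨S ∪ (k * P.p).primeFactors, Finset.subset_union_left, ?_⟩
    refine occursIn_of_prod k P.p _ a (β x') hx hptors ?_
    intro ℓ hℓ
    have hℓS : (ℓ : ℕ) ∉ S := fun h => hℓ (Finset.mem_union_left _ h)
    have hℓd : ¬ (ℓ : ℕ) ∣ k * P.p :=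
      not_dvd_of_not_mem_primeFactors hkp0 ℓ.2 (fun h => hℓ (Finset.mem_union_right _ h))
    obtain ⟨hmem, hβ⟩ := hβT ℓ hℓd x'
    rw [← hβ, ← map_zsmul]
    congr 1
    apply Subtype.ext
    simpa using hhecke ℓ hℓS x

/-- **Row 38 from the minimal wall**: S44 ⇐ BLR + (A3min) + R3 + R3'. -/
theorem S44_of_atPOccurs (hE : EmbedStatement) (hA : AtPOccursStatement)
    (hR3 : EigenformOfOccursStatement) (hR3' : AlmostAllToWitnessStatement) :
    S44Statement := by
  intro P N hcond hpN hirr hmod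
  obtain ⟨k, rfl⟩ := hpN
  have hNpos : 0 < P.p * k := hcond.pos
  have hkpos : 0 < k := by
    rcases Nat.eq_zero_or_pos k with h0 | h0
    · subst h0
      simp at hNpos
    · exact h0
  have hpk : ¬ P.p ∣ k := by
    intro h
    refine hcond.sq_not_dvd P.pp ?_
    rw [pow_two]
    exact Nat.mul_dvd_mul_left _ h
  have : NeZero k := ⟨hkpos.ne'⟩
  have : NeZero (P.p * k) := ⟨hNpos.ne'⟩
  obtain ⟨f, W, 𝔪, hwit⟩ := hmod
  have hwit' : P.IsCongruentWitness (P.p * k) f W 𝔪 := hwit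
  have hW : W.IsIntegralModelOf P.freyCurve := hwit.2.1
  obtain ⟨S, hemb⟩ := hE P (P.p * k) hirr f W 𝔪 hwit'
  obtain ⟨S', -, hocc⟩ :=
    hA P k hpk (hcond.p_dvd_abc (Dvd.intro k rfl)) hirr S (fun ℓ => W.apOfModel ℓ) hemb
  obtain ⟨g, 𝔪', hg, hmax, hp, hcong⟩ := hR3 k P.p P.pp S' (fun ℓ => W.apOfModel ℓ) hocc
  have hwitk : P.IsCongruentWitness k g W 𝔪' :=
    hR3' P k hkpos g W 𝔪' S' hg hW hmax hp hcong
  exact ⟨k, Dvd.intro_left _ rfl, hpk, g, W, 𝔪', hwitk⟩

end Fermat.Agent.Ribet.H884
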