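import Fermat.Agent.Ribet.Spec

/-!
# Row RIBET, piece P1p: abstract Mazur–Ribet at `p` (Frey form)

`S44_of_atP` : frozen S44 follows from the L3 interfaces of `Fermat.Agent.Ribet.Spec`
(`EmbedStatement` = BLR, `AtPPackageStatement` = A3+, `NotMultiplicativeTypeStatement` = NMT,
`PlacesStatement` = PL, `EigenformOfOccursStatement` = R3, `AlmostAllToWitnessStatement` = R3').

Pure algebra: `E[p] ↪ J₀(pM')[p]` lands in the finite part `𝓕`; if its image in the abelian
part `J₀(M')²` is nonzero, a nonzero coordinate is a `p`-torsion Hecke eigenvector at level `M'`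
(R3, R3' give the witness of level `M'`); otherwise `E[p]` sits in the multiplicative-type part
`𝒲`, on which inertia at `p` is the cyclotomic scalar, contradicting NMT.
-/

set_option autoImplicit false

open WeierstrassCurve WeierstrassCurve.Affine WeierstrassCurve.Affine.Point
open CuspForm ModularFormClass UpperHalfPlane

namespace Fermat.Agent.Ribet.H884

open Spec ModularCurve

/-- A prime outside `(n).primeFactors` does not divide `n ≠ 0`. -/
theorem not_dvd_of_not_mem_primeFactors {n ℓ : ℕ} (hn : n ≠ 0) (hℓ : ℓ.Prime)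
    (h : ℓ ∉ n.primeFactors) : ¬ ℓ ∣ n := fun hd =>
  h (Nat.mem_primeFactors.2 ⟨hℓ, hd, hn⟩)

/-- A nonzero `p`-torsion Hecke eigenvector in a product `J × J` has a nonzero coordinate which
is again a `p`-torsion Hecke eigenvector: the occurrence statement at level `M`. -/
theorem occursIn_of_prod (M p : ℕ) [NeZero M] (S : Finset ℕ) (a : ℕ → ℤ)
    (y : JZero M × JZero M) (hy : y ≠ 0) (hp : p • y = 0)
    (hT : ∀ ℓ : Nat.Primes, (ℓ : ℕ) ∉ S →
      (heckeOperatorBar M ℓ y.1, heckeOperatorBar M ℓ y.2) = a ℓ • y) :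
    OccursIn M p S a := by
  have hp1 : p • y.1 = 0 := by
    have := congrArg Prod.fst hp
    simpa using this
  have hp2 : p • y.2 = 0 := by
    have := congrArg Prod.snd hp
    simpa using this
  by_cases h1 : y.1 = 0
  · have h2 : y.2 ≠ 0 := by
      intro h2
      exact hy (Prod.ext h1 h2)
    refine ⟨y.2, h2, hp2, fun ℓ hℓ => ?_⟩
    have := congrArg Prod.snd (hT ℓ hℓ)
    simpa using this
  · refine ⟨y.1, h1, hp1, fun ℓ hℓ => ?_⟩
    have := congrArg Prod.fst (hT ℓ hℓ)
    simpa using this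

/-- **(P1p)** abstract Mazur–Ribet at `p`, Frey form: pure algebra from the at-`p` package.
Verbatim the statement of `Fermat.Agent.Ribet.Skeleton.S44_of_atP`. -/
theorem S44_of_atP (hE : EmbedStatement) (hA : AtPPackageStatement)
    (hNMT : NotMultiplicativeTypeStatement) (hPl : PlacesStatement)
    (hR3 : EigenformOfOccursStatement) (hR3' : AlmostAllToWitnessStatement) :
    S44Statement := by
  intro P N hcond hpN hirr hmod
  obtain ⟨k, rfl⟩ := hpN
  have hNpos : 0 < P.p * k := hcond.pos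
  have hkpos : 0 < k := by
    rcases Nat.eq_zero_or_pos k with h0 | h0
    · subst h0
      simp at hNpos
    · exact h0
  have hpk : ¬ P.p ∣ k := by
    intro h
    refine hcond.sq_not_dvd P.pp ?_
    rw [pow_two]
    exact Nat.mul_dvd_mul_left _ h
  have : NeZero k := ⟨hkpos.ne'⟩
  have : NeZero (P.p * k) := ⟨hNpos.ne'⟩
  obtain ⟨f, W, 𝔪, hwit⟩ := hmod
  have hwit' : P.IsCongruentWitness (P.p * k) f W 𝔪 := hwit
  have hW : W.IsIntegralModelOf P.freyCurve := hwit.2.1
  obtain ⟨S, ι, hinj, hgal, hhecke⟩ := hE P (P.p * k) hirr f W 𝔪 hwit'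
  obtain ⟨A, hAp, -⟩ := hPl P.p P.pp
  obtain ⟨𝒲, 𝓕, β, -, htors, hmult, hβT, hβker, hflat⟩ :=
    hA P k hpk (hcond.p_dvd_abc (Dvd.intro k rfl)) A hAp
  have hι𝓕 : ∀ x, ι x ∈ 𝓕 := hflat ι hgal
  by_cases hcase : ∀ x : FreyTorsion P, β ⟨ι x, hι𝓕 x⟩ = 0
  · -- `E[p]` lies in the multiplicative-type part: contradiction with NMT
    exfalso
    refine hNMT P A hAp ?_
    intro σ hσ c hc x
    apply hinj
    rw [hgal, map_nsmul]
    exact hmult σ hσ c hc (ι x) (hβker ⟨ι x, hι𝓕 x⟩ (hcase x))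
  · -- a nonzero image in the abelian part: the eigensystem occurs at level `k`
    rw [not_forall] at hcase
    obtain ⟨x, hx⟩ := hcase
    set x' : 𝓕 := ⟨ι x, hι𝓕 x⟩ with hx'
    set S' : Finset ℕ := S ∪ (k * P.p).primeFactors with hS'
    have hkp0 : k * P.p ≠ 0 := Nat.mul_ne_zero hkpos.ne' P.pp.ne_zero
    have hptors : P.p • β x' = 0 := by
      rw [← map_nsmul]
      have : P.p • x' = 0 := by
        apply Subtype.ext
        simpa using htors (ι x) (hι𝓕 x)
      rw [this, _root_.map_zero]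
    have hocc : OccursIn k P.p S' (fun ℓ => W.apOfModel ℓ) := by
      refine occursIn_of_prod k P.p S' _ (β x') hx hptors ?_
      intro ℓ hℓ
      have hℓS : (ℓ : ℕ) ∉ S := fun h => hℓ (Finset.mem_union_left _ h)
      have hℓd : ¬ (ℓ : ℕ) ∣ k * P.p :=
        not_dvd_of_not_mem_primeFactors hkp0 ℓ.2 (fun h => hℓ (Finset.mem_union_right _ h))
      obtain ⟨hmem, hβ⟩ := hβT ℓ hℓd x'
      rw [← hβ, ← map_zsmul]
      congr 1
      apply Subtype.ext
      simpa using hhecke ℓ hℓS x
    obtain ⟨g, 𝔪', hg, hmax, hp, hcong⟩ := hR3 k P.p P.pp S' (fun ℓ => W.apOfModel ℓ) hocc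
    have hwitk : P.IsCongruentWitness k g W 𝔪' :=
      hR3' P k hkpos g W 𝔪' S' hg hW hmax hp hcong
    exact ⟨k, Dvd.intro_left _ rfl, hpk, g, W, 𝔪', hwitk⟩

end Fermat.Agent.Ribet.H884
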